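import Fermat.Agent.S25.H446.PtIdeal
import Fermat.Agent.S25.H550.GDBaseChangeLin

/-!
# Row S25, block ALGCHARTS, shared sub-lemma SH2, part 3 (helper446): base change of `N₀ ⧸ I_q N₀`

* `isBaseChange_of_surjective_of_ker` : quotients of a base change are base changes (general).
* `vanq_eq_span` : for base-change maps `bm : G → G'` along `φ : A → A'`,
  `vanq q G'` is the `A' ⊗ B₀`-span of the image of `vanq q G`.
* `vanqMap φ bm q : N₀ ⧸ vanq q G → N₀' ⧸ vanq q G'`, the induced semilinear map;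
  `vanqMap_isSemilinearBaseChange`.
* `exists_vanq_quotient_equiv` : `A' ⊗[A] (N₀ ⧸ vanq q G) ≃ₗ[A'] N₀' ⧸ vanq q G'`.
-/

set_option autoImplicit false
set_option linter.style.haveILetI false
set_option linter.unusedSectionVars false

universe u

open scoped TensorProduct

namespace Fermat.Agent.S25.H446

open Fermat.Agent.S25 Fermat.Agent.S25.H11

section QuotientBC

variable {R R' : Type u} [CommRing R] [CommRing R'] [Algebra R R']
  {M M' Q Q' : Type u} [AddCommGroup M] [Module R M]
  [AddCommGroup M'] [Module R M'] [Module R' M'] [IsScalarTower R R' M']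
  [AddCommGroup Q] [Module R Q]
  [AddCommGroup Q'] [Module R Q'] [Module R' Q'] [IsScalarTower R R' Q']

/-- **Quotients of a base change.**  If `b : M → M'` is a base change along `R → R'`,
`π : M → Q` and `π' : M' → Q'` are surjective, `c : Q → Q'` is compatible with `b`, and the
kernel of `π'` is spanned by the image of the kernel of `π`, then `c` is a base change. -/
theorem isBaseChange_of_surjective_of_ker {b : M →ₗ[R] M'} (hb : IsBaseChange R' b)
    (π : M →ₗ[R] Q) (π' : M' →ₗ[R'] Q') (c : Q →ₗ[R] Q')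
    (hπ : Function.Surjective π) (hπ' : Function.Surjective π')
    (comm : ∀ n, c (π n) = π' (b n))
    (hker : LinearMap.ker π' ≤ Submodule.span R' (b '' (LinearMap.ker π : Set M))) :
    IsBaseChange R' c := by
  apply IsBaseChange.of_lift_unique
  intro P instP _ _ _ g
  letI instG : AddCommGroup P := Module.addCommMonoidToAddCommGroup R'
  let gt : M' →ₗ[R'] P := hb.lift (g.comp π)
  have hgt : ∀ n, gt (b n) = g (π n) := fun n => hb.lift_eq _ n
  have hgt0 : LinearMap.ker π' ≤ LinearMap.ker gt := by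
    refine hker.trans (Submodule.span_le.mpr ?_)
    rintro _ ⟨n, hn, rfl⟩
    rw [SetLike.mem_coe, LinearMap.mem_ker, hgt, LinearMap.mem_ker.mp hn, map_zero]
  let e := π'.quotKerEquivOfSurjective hπ'
  let g' : Q' →ₗ[R'] P := ((LinearMap.ker π').liftQ gt hgt0).comp e.symm.toLinearMap
  have he : ∀ x, e.symm (π' x) = Submodule.Quotient.mk x := by
    intro x
    rw [LinearEquiv.symm_apply_eq]
    rfl
  have hg' : ∀ x, g' (π' x) = gt x := by
    intro x
    change (LinearMap.ker π').liftQ gt hgt0 (e.symm (π' x)) = gt x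
    rw [he]
    rfl
  refine ⟨g', ?_, ?_⟩
  · ext z
    obtain ⟨n, rfl⟩ := hπ z
    change g' (c (π n)) = g (π n)
    rw [comm, hg', hgt]
  · intro g'' hg''
    have h1 : g''.comp π' = gt := by
      apply hb.algHom_ext
      intro n
      change g'' (π' (b n)) = gt (b n)
      rw [hgt, ← comm]
      exact congrArg (fun f : Q →ₗ[R] P => f (π n)) hg''
    ext z'
    obtain ⟨x, rfl⟩ := hπ' z'
    rw [hg', ← h1]
    rfl

end QuotientBC

section SemiQuot

variable {R R' : Type u} [CommRing R] [CommRing R'] (ρ : R →+* R')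
  {N N' : Type u} [AddCommGroup N] [Module R N] [AddCommGroup N'] [Module R' N']

/-- The linear map underlying a semilinear map, for the module structure `Module.compHom`. -/
theorem span_image_eq_top_of_isSemilinearBaseChange (b : N →ₛₗ[ρ] N')
    (hb : IsSemilinearBaseChange ρ b) (n' : N') :
    n' ∈ Submodule.span R' (Set.range b) := by
  letI algRR' : Algebra R R' := ρ.toAlgebra
  letI modRN' : Module R N' := Module.compHom N' ρ
  haveI t3 : IsScalarTower R R' N' := ⟨fun r r' n => by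
    change (ρ r * r') • n = ρ r • (r' • n); rw [mul_smul]⟩
  have hb' : IsBaseChange R' (show N →ₗ[R] N' from
    { toFun := fun n => b n
      map_add' := fun m n => b.map_add m n
      map_smul' := fun r n => LinearMap.map_smulₛₗ b r n }) := hb
  refine hb'.inductionOn n' (fun x => x ∈ Submodule.span R' (Set.range b)) (zero_mem _) ?_ ?_ ?_
  · intro n
    exact Submodule.subset_span ⟨n, rfl⟩
  · intro s x hx
    exact Submodule.smul_mem _ s hx
  · intro x y hx hy
    exact add_mem hx hy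

/-- `b` maps `I • ⊤` into `(I.map ρ) • ⊤`. -/
theorem semilinear_mem_map_smul_top (b : N →ₛₗ[ρ] N') (I : Ideal R) {n : N}
    (hn : n ∈ I • (⊤ : Submodule R N)) : b n ∈ (I.map ρ) • (⊤ : Submodule R' N') := by
  refine Submodule.smul_induction_on (p := fun n => b n ∈ (I.map ρ) • (⊤ : Submodule R' N')) hn
    ?_ ?_
  · intro i hi n _
    rw [b.map_smulₛₗ]
    exact Submodule.smul_mem_smul (Ideal.mem_map_of_mem ρ hi) Submodule.mem_top
  · intro x y hx hy
    rw [map_add]
    exact add_mem hx hy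

/-- For a semilinear base change `b : N → N'` along `ρ` and an ideal `I` of `R`, the submodule
`(I.map ρ) • ⊤` of `N'` is spanned by the image of `I • ⊤`. -/
theorem map_smul_top_le_span (b : N →ₛₗ[ρ] N') (hb : IsSemilinearBaseChange ρ b) (I : Ideal R) :
    (I.map ρ) • (⊤ : Submodule R' N') ≤
      Submodule.span R' (b '' ((I • (⊤ : Submodule R N) : Submodule R N) : Set N)) := by
  set S : Submodule R' N' :=
    Submodule.span R' (b '' ((I • (⊤ : Submodule R N) : Submodule R N) : Set N)) with hS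
  have key : ∀ r ∈ I.map ρ, ∀ n' : N', r • n' ∈ S := by
    intro r hr
    refine Submodule.span_induction (p := fun r _ => ∀ n' : N', r • n' ∈ S) ?_ ?_ ?_ ?_ hr
    · rintro _ ⟨i, hi, rfl⟩ n'
      have hn' := span_image_eq_top_of_isSemilinearBaseChange ρ b hb n'
      refine Submodule.span_induction (p := fun x _ => ρ i • x ∈ S) ?_ ?_ ?_ ?_ hn'
      · rintro _ ⟨n, rfl⟩
        rw [← b.map_smulₛₗ]
        exact Submodule.subset_span
          ⟨i • n, Submodule.smul_mem_smul hi Submodule.mem_top, rfl⟩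
      · rw [smul_zero]; exact zero_mem _
      · intro x y _ _ hx hy
        rw [smul_add]; exact add_mem hx hy
      · intro a x _ hx
        rw [smul_comm]; exact Submodule.smul_mem _ a hx
    · intro n'
      rw [zero_smul]; exact zero_mem _
    · intro x y _ _ hx hy n'
      rw [add_smul]; exact add_mem (hx n') (hy n')
    · intro a x _ hx n'
      rw [smul_eq_mul, mul_smul]; exact Submodule.smul_mem _ a (hx n')
  exact Submodule.smul_le.mpr fun r hr n' _ => key r hr n'

/-- The semilinear map `N ⧸ V → N' ⧸ V'` induced by `b`. -/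
noncomputable def quotMapSL (b : N →ₛₗ[ρ] N') (V : Submodule R N) (V' : Submodule R' N')
    (h : V ≤ V'.comap b) : (N ⧸ V) →ₛₗ[ρ] (N' ⧸ V') :=
  Submodule.mapQ V V' b h

@[simp] theorem quotMapSL_mk (b : N →ₛₗ[ρ] N') (V : Submodule R N) (V' : Submodule R' N')
    (h : V ≤ V'.comap b) (n : N) :
    quotMapSL ρ b V V' h (Submodule.Quotient.mk n) = Submodule.Quotient.mk (b n) := rfl

/-- **Base change of a quotient.**  If `b : N → N'` is a semilinear base change and `V'` is
spanned by the image of `V`, then `N ⧸ V → N' ⧸ V'` is a semilinear base change. -/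
theorem quotMapSL_isSemilinearBaseChange (b : N →ₛₗ[ρ] N')
    (hb : IsSemilinearBaseChange ρ b) (V : Submodule R N) (V' : Submodule R' N')
    (h : V ≤ V'.comap b) (hV' : V' ≤ Submodule.span R' (b '' (V : Set N))) :
    IsSemilinearBaseChange ρ (quotMapSL ρ b V V' h) := by
  unfold IsSemilinearBaseChange
  letI algRR' : Algebra R R' := ρ.toAlgebra
  letI modRN' : Module R N' := Module.compHom N' ρ
  haveI t3 : IsScalarTower R R' N' := ⟨fun r r' n => by
    change (ρ r * r') • n = ρ r • (r' • n); rw [mul_smul]⟩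
  letI modRQ' : Module R (N' ⧸ V') := Module.compHom _ ρ
  haveI t4 : IsScalarTower R R' (N' ⧸ V') := ⟨fun r r' n => by
    change (ρ r * r') • n = ρ r • (r' • n); rw [mul_smul]⟩
  have hb' : IsBaseChange R' (show N →ₗ[R] N' from
    { toFun := fun n => b n
      map_add' := fun m n => b.map_add m n
      map_smul' := fun r n => LinearMap.map_smulₛₗ b r n }) := hb
  refine isBaseChange_of_surjective_of_ker hb' V.mkQ V'.mkQ _ (Submodule.mkQ_surjective _)
    (Submodule.mkQ_surjective _) (fun n => rfl) ?_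
  rw [Submodule.ker_mkQ, Submodule.ker_mkQ]
  exact hV'

/-- The semilinear map `N ⧸ I N → N' ⧸ (I.map ρ) N'` induced by `b`. -/
noncomputable def quotSMulTopMap (b : N →ₛₗ[ρ] N') (I : Ideal R) (I' : Ideal R')
    (hI : I.map ρ = I') :
    (N ⧸ I • (⊤ : Submodule R N)) →ₛₗ[ρ] (N' ⧸ I' • (⊤ : Submodule R' N')) :=
  quotMapSL ρ b _ _ (fun n hn => by
    rw [Submodule.mem_comap, ← hI]
    exact semilinear_mem_map_smul_top ρ b I hn)

@[simp] theorem quotSMulTopMap_mk (b : N →ₛₗ[ρ] N') (I : Ideal R) (I' : Ideal R')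
    (hI : I.map ρ = I') (n : N) :
    quotSMulTopMap ρ b I I' hI (Submodule.Quotient.mk n) = Submodule.Quotient.mk (b n) := rfl

/-- **Base change of `N ⧸ I N`.** -/
theorem quotSMulTopMap_isSemilinearBaseChange (b : N →ₛₗ[ρ] N')
    (hb : IsSemilinearBaseChange ρ b) (I : Ideal R) (I' : Ideal R') (hI : I.map ρ = I') :
    IsSemilinearBaseChange ρ (quotSMulTopMap ρ b I I' hI) := by
  refine quotMapSL_isSemilinearBaseChange ρ b hb _ _ _ ?_
  rw [← hI]
  exact map_smul_top_le_span ρ b hb I

end SemiQuot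

section Vanq

variable {k : Type u} [Field k] {B₀ B₁ B₀₁ : Type u} [CommRing B₀] [CommRing B₁] [CommRing B₀₁]
  [Algebra k B₀] [Algebra k B₁] [Algebra k B₀₁] [Algebra B₀ B₀₁] [Algebra B₁ B₀₁]
  [IsScalarTower k B₀ B₀₁] [IsScalarTower k B₁ B₀₁]
  {A A' : Type u} [CommRing A] [Algebra k A] [CommRing A'] [Algebra k A']
  (φ : A →ₐ[k] A') {G : CurveGD k B₀ B₁ B₀₁ A} {G' : CurveGD k B₀ B₁ B₀₁ A'}
  (bm : GlueDatum.BaseChangeMaps (tensorMapLeft k φ B₀) (tensorMapLeft k φ B₁)
    (tensorMapLeft k φ B₀₁) G G')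
  {m : ℕ} (q : Fin m → (B₀ →ₐ[k] k))

/-- Base-change maps send `vanq q G` into `vanq q G'`. -/
theorem b₀_mem_vanq {n : G.N₀} (hn : n ∈ vanq q G) : bm.b₀ n ∈ vanq q G' := by
  have h := semilinear_mem_map_smul_top (tensorMapLeft k φ B₀) bm.b₀ (ptIdeal q A) hn
  rwa [ptIdeal_map φ q] at h

/-- `vanq q G'` is spanned by the image of `vanq q G`. -/
theorem vanq_eq_span :
    vanq q G' = Submodule.span (A' ⊗[k] B₀) (bm.b₀ '' (vanq q G : Set G.N₀)) := by
  apply le_antisymm
  · have h := map_smul_top_le_span (tensorMapLeft k φ B₀) bm.b₀ bm.isBaseChange₀ (ptIdeal q A)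
    rwa [ptIdeal_map φ q] at h
  · refine Submodule.span_le.mpr ?_
    rintro _ ⟨n, hn, rfl⟩
    exact b₀_mem_vanq φ bm q hn

/-- The semilinear map `N₀ ⧸ I_q N₀ → N₀' ⧸ I_q N₀'` induced by base-change maps. -/
noncomputable def vanqMap :
    (G.N₀ ⧸ vanq q G) →ₛₗ[tensorMapLeft k φ B₀] (G'.N₀ ⧸ vanq q G') :=
  quotSMulTopMap (tensorMapLeft k φ B₀) bm.b₀ (ptIdeal q A) (ptIdeal q A') (ptIdeal_map φ q)

@[simp] theorem vanqMap_mk (n : G.N₀) :
    vanqMap φ bm q (Submodule.Quotient.mk n) = Submodule.Quotient.mk (bm.b₀ n) := rfl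

/-- **Base change of `N₀ ⧸ I_q N₀`** (semilinear form over `A ⊗ B₀ → A' ⊗ B₀`). -/
theorem vanqMap_isSemilinearBaseChange :
    IsSemilinearBaseChange (tensorMapLeft k φ B₀) (vanqMap φ bm q) :=
  quotSMulTopMap_isSemilinearBaseChange _ bm.b₀ bm.isBaseChange₀ _ _ _

/-- **Base change of `N₀ ⧸ I_q N₀`** (`A`-linear form):
`A' ⊗[A] (N₀ ⧸ I_q N₀) ≃ N₀' ⧸ I_q N₀'`. -/
theorem exists_vanq_quotient_equiv [Algebra A A'] [IsScalarTower k A A']
    (hφ : ∀ a, φ a = algebraMap A A' a) :
    ∃ E : A' ⊗[A] (G.N₀ ⧸ vanq q G) ≃ₗ[A'] (G'.N₀ ⧸ vanq q G'),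
      ∀ (s : A') (n : G.N₀),
        E (s ⊗ₜ[A] Submodule.Quotient.mk n) = s • Submodule.Quotient.mk (bm.b₀ n) := by
  obtain ⟨E, hE⟩ := H550.exists_equiv_of_isSemilinearBaseChange_tensor φ hφ B₀
    (vanqMap φ bm q) (vanqMap_isSemilinearBaseChange φ bm q)
  exact ⟨E, fun s n => hE s _⟩

end Vanq

end Fermat.Agent.S25.H446
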