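import Fermat.Agent.S25.H11.ACLeaves
import Fermat.Agent.S25.H791.ACPointBC
import Fermat.Agent.S25.H610.SecBC
import Fermat.Agent.S25.H190.ACDeg1
import Fermat.Agent.S25.H265.GDCRig
import Fermat.Agent.S25.H265.GDCDeg
import Fermat.Agent.S25.H265.GDCBaseChange
import Fermat.Agent.S25.H551.Invertible
import Fermat.Agent.S25.H446.PtBC

/-!
# Row S25, block ALGCHARTS, leaf ST2 (helper446): the locus where `H⁰(G(nE₀ - Σq))` generates
`N₁ / y N₁`

`stage2_locus` : exact statement of `coord/S25-ALGCHARTS-skeleton.lean` (squad-lead helper11);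
`leaf_stage2 : H11.Leaf.Stage2 k B₀ B₁ B₀₁`.

Route.  For `G` over `A` with `P1`:
* `genSub x y n q G := y N₁ + R₁ · snd (secq)`, an `A ⊗ B₁`-submodule of `N₁`;
  `N₁ ⧸ genSub` is a finite `A`-module and commutes with base change (`genSubMap`);
  `J := Ann_A (N₁ ⧸ genSub)`.
* `P2 ⇒ genSub = ⊤` (`genSub_eq_top_of_isGen`).
* `genSub = ⊤ ⇒ P2` (`exists_isGen_of_genSub_eq_top`): `ker (sec → N₀ ⧸ I_q N₀)` is a finite
  projective `A`-module of rank `(n d + 1 - g) - m = 1` (DEG1 on the fibres + SH2), hence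
  invertible; the rigidification `b : N₁ → A` gives `λ : ker → A`, which is onto because
  `genSub = ⊤` and `b (y N₁) = 0`; a surjection of invertible modules is bijective.
-/

set_option autoImplicit false
set_option linter.style.haveILetI false
set_option linter.unusedSectionVars false

universe u

open scoped TensorProduct

namespace Fermat.Agent.S25.H446

open Fermat.Agent.S25 Fermat.Agent.S25.H11

variable {k : Type u} [Field k]
  {B₀ B₁ B₀₁ : Type u} [CommRing B₀] [CommRing B₁] [CommRing B₀₁]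
  [Algebra k B₀] [Algebra k B₁] [Algebra k B₀₁] [Algebra B₀ B₀₁] [Algebra B₁ B₀₁]
  [IsScalarTower k B₀ B₀₁] [IsScalarTower k B₁ B₀₁]
  {x : B₀} {y : B₁} {e : B₁ →ₐ[k] k}

section GenSub

variable {A : Type u} [CommRing A] [Algebra k A]

/-- The submodule `y N₁ + R₁ · snd (secq)` of `N₁`. -/
def genSub (x : B₀) (y : B₁) (n : ℕ) {m : ℕ} (q : Fin m → (B₀ →ₐ[k] k))
    (G : CurveGD k B₀ B₁ B₀₁ A) : Submodule (A ⊗[k] B₁) G.N₁ :=
  (Ideal.span {yElt k A y}) • (⊤ : Submodule (A ⊗[k] B₁) G.N₁) ⊔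
    Submodule.span (A ⊗[k] B₁)
      ((fun s : G.N₀ × G.N₁ => s.2) '' (secq x n q G : Set (G.N₀ × G.N₁)))

/-- `P2 ⇒ genSub = ⊤`. -/
theorem genSub_eq_top_of_isGen {n : ℕ} {m : ℕ} {q : Fin m → (B₀ →ₐ[k] k)}
    {G : CurveGD k B₀ B₁ B₀₁ A} {s : G.N₀ × G.N₁} (hs : IsGen x y n q G s) :
    genSub x y n q G = ⊤ := by
  rw [eq_top_iff]
  intro c _
  obtain ⟨r, hr⟩ := hs.gen c
  have hc : c = (c - r • s.2) + r • s.2 := by abel
  rw [hc]
  exact Submodule.add_mem _ (Submodule.mem_sup_left hr)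
    (Submodule.mem_sup_right (Submodule.smul_mem _ r (Submodule.subset_span ⟨s, hs.mem, rfl⟩)))

/-- The evaluation map `sec → N₀ ⧸ I_q N₀`. -/
noncomputable def evq (x : B₀) (n : ℕ) {m : ℕ} (q : Fin m → (B₀ →ₐ[k] k))
    (G : CurveGD k B₀ B₁ B₀₁ A) : sec x n G →ₗ[A] (G.N₀ ⧸ vanq q G) :=
  ((vanq q G).mkQ.restrictScalars A) ∘ₗ (LinearMap.fst A G.N₀ G.N₁) ∘ₗ (sec x n G).subtype

theorem evq_apply {n : ℕ} {m : ℕ} {q : Fin m → (B₀ →ₐ[k] k)} {G : CurveGD k B₀ B₁ B₀₁ A}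
    (s : sec x n G) : evq x n q G s = Submodule.Quotient.mk (s : G.N₀ × G.N₁).1 := rfl

theorem mem_ker_evq {n : ℕ} {m : ℕ} {q : Fin m → (B₀ →ₐ[k] k)} {G : CurveGD k B₀ B₁ B₀₁ A}
    (s : sec x n G) : s ∈ LinearMap.ker (evq x n q G) ↔ (s : G.N₀ × G.N₁) ∈ secq x n q G := by
  rw [LinearMap.mem_ker, evq_apply, Submodule.Quotient.mk_eq_zero, mem_secq]
  exact ⟨fun h => ⟨s.2, h⟩, fun h => h.2⟩

theorem evq_surjective {n : ℕ} {m : ℕ} {q : Fin m → (B₀ →ₐ[k] k)} {G : CurveGD k B₀ B₁ B₀₁ A}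
    (h1 : P1 x n q G) : Function.Surjective (evq x n q G) := by
  intro z
  obtain ⟨a, rfl⟩ := Submodule.Quotient.mk_surjective _ z
  obtain ⟨s, hs, hv⟩ := h1.2 a
  refine ⟨⟨s, hs⟩, ?_⟩
  rw [evq_apply, Submodule.Quotient.eq]
  have : s.1 - a = -(a - s.1) := by abel
  rw [this]
  exact (vanq q G).neg_mem hv

end GenSub

section Rank

variable [IsAlgClosed k] {A : Type u} [CommRing A] [Algebra k A]

/-- Under `P0` and `Deg0`, `H⁰(G(nE₀))` has rank `m + 1 = n d + 1 - g` at every prime. -/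
theorem rankAtStalk_sec (hC : IsCurveChart k B₀ B₁ B₀₁ x y e) (i : ChartIndex k B₀)
    (hnum : i.Numeric B₀₁ y) (G : CurveGD k B₀ B₁ B₀₁ A) (hdeg : G.Deg0) (h0 : P0 x i.n G)
    (p : PrimeSpectrum A) :
    Module.rankAtStalk (R := A) (sec x i.n G) p = i.m + 1 := by
  let K := p.asIdeal.ResidueField
  letI algkK : Algebra k K := ((algebraMap A K).comp (algebraMap k A)).toAlgebra
  haveI tower : IsScalarTower k A K := IsScalarTower.of_algebraMap_eq (fun _ => rfl)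
  let ψ : A →ₐ[k] K := IsScalarTower.toAlgHom k A K
  obtain ⟨GK, hbc⟩ := H265.curveGD_exists_isBC (B₀ := B₀) (B₁ := B₁) (B₀₁ := B₀₁) ψ G
  have h0K : P0 x i.n GK := H610.P0_of_isBC ψ hbc x i.n h0
  have hdegK : GK.degree = 0 := hdeg K ψ GK hbc
  obtain ⟨hfin, hrk⟩ := H190.finrank_sec hC GK hdegK i.n h0K
  obtain ⟨bc⟩ := hbc
  let p' : PrimeSpectrum K := ⟨⊥, Ideal.isPrime_bot⟩
  have h1 := H610.rankAtStalk_sec_of_baseChangeMaps hC ψ bc i.n h0 p'
  have hp : PrimeSpectrum.comap ψ.toRingHom p' = p := by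
    apply PrimeSpectrum.ext
    change Ideal.comap ψ.toRingHom ⊥ = p.asIdeal
    rw [← RingHom.ker_eq_comap_bot]
    exact Ideal.ker_algebraMap_residueField (I := p.asIdeal)
  rw [hp] at h1
  have h4 : Module.rankAtStalk (R := K) (sec x i.n GK) p' = Module.finrank K (sec x i.n GK) := by
    rw [Module.rankAtStalk_eq_finrank_of_free]
    rfl
  rw [← h1, h4]
  have h2 := hnum.1
  have h3 := hnum.2
  omega

/-- Under `P1` and `Deg0`, `H⁰(G(nE₀ - Σq))` is an invertible `A`-module. -/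
theorem ker_evq_invertible (hC : IsCurveChart k B₀ B₁ B₀₁ x y e) (i : ChartIndex k B₀)
    (hnum : i.Numeric B₀₁ y) (G : CurveGD k B₀ B₁ B₀₁ A) (hdeg : G.Deg0)
    (h1 : P1 x i.n i.q G) :
    Module.Invertible A (LinearMap.ker (evq x i.n i.q G)) := by
  obtain ⟨-, hfin, hproj⟩ := H610.sec_finite_projective hC G i.n h1.1
  haveI := hfin
  haveI := hproj
  haveI hQf := vanq_quotient_finite hC i.q G
  haveI hQp := vanq_quotient_projective hC i.q G
  obtain ⟨σ, hσ⟩ := Module.projective_lifting_property (evq x i.n i.q G) LinearMap.id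
    (evq_surjective h1)
  have hex : Function.Exact (LinearMap.ker (evq x i.n i.q G)).subtype (evq x i.n i.q G) :=
    LinearMap.exact_subtype_ker_map _
  obtain ⟨E, hE1, hE2⟩ := hex.splitSurjectiveEquiv (Submodule.injective_subtype _) ⟨σ, hσ⟩
  let pr : sec x i.n G →ₗ[A] LinearMap.ker (evq x i.n i.q G) :=
    (LinearMap.fst A _ _) ∘ₗ E.toLinearMap
  have hpr' : ∀ ℓ : LinearMap.ker (evq x i.n i.q G),
      pr ((LinearMap.ker (evq x i.n i.q G)).subtype ℓ) = ℓ := by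
    intro ℓ
    have h : E ((LinearMap.ker (evq x i.n i.q G)).subtype ℓ) = (ℓ, 0) := by
      have h' := congrArg
        (fun f : LinearMap.ker (evq x i.n i.q G) →ₗ[A] sec x i.n G => E (f ℓ)) hE1
      simpa using h'
    show (E ((LinearMap.ker (evq x i.n i.q G)).subtype ℓ)).1 = ℓ
    rw [h]
  have hpr : pr ∘ₗ (LinearMap.ker (evq x i.n i.q G)).subtype = LinearMap.id :=
    LinearMap.ext hpr'
  haveI : Module.Projective A (LinearMap.ker (evq x i.n i.q G)) :=
    Module.Projective.of_split _ pr hpr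
  haveI : Module.Finite A (LinearMap.ker (evq x i.n i.q G)) :=
    Module.Finite.of_surjective pr (fun ℓ => ⟨(LinearMap.ker (evq x i.n i.q G)).subtype ℓ,
      hpr' ℓ⟩)
  refine H551.invertible_of_rankAtStalk_eq_one (R := A) (LinearMap.ker (evq x i.n i.q G)) ?_
  intro p
  have h := congrFun (Module.rankAtStalk_eq_of_equiv (R := A) (M := sec x i.n G)
    (N := LinearMap.ker (evq x i.n i.q G) × (G.N₀ ⧸ vanq i.q G)) E) p
  rw [Module.rankAtStalk_prod, Pi.add_apply, rankAtStalk_sec hC i hnum G hdeg h1.1 p,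
    vanq_quotient_rank hC i.q G p] at h
  omega

end Rank

section Rigid

variable {A : Type u} [CommRing A] [Algebra k A]

/-- A rigidification is `A`-linear. -/
theorem rig_smul {G : CurveGD k B₀ B₁ B₀₁ A} (b : G.N₁ →ₛₗ[(epsHom e A).toRingHom] A) (a : A)
    (n : G.N₁) : b (a • n) = a * b n := by
  rw [← algebraMap_smul (A ⊗[k] B₁) a n, b.map_smulₛₗ]
  have h : (epsHom e A).toRingHom (algebraMap A (A ⊗[k] B₁) a) = a := (epsHom e A).commutes a
  rw [h, smul_eq_mul]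

/-- The marked point lies on `y = 0`. -/
theorem epsHom_yElt (hC : IsCurveChart k B₀ B₁ B₀₁ x y e) : epsHom e A (yElt k A y) = 0 := by
  simp [epsHom, yElt, hC.e_y]

/-- A rigidification kills `y N₁`. -/
theorem rig_eq_zero_of_mem (hC : IsCurveChart k B₀ B₁ B₀₁ x y e) {G : CurveGD k B₀ B₁ B₀₁ A}
    (b : G.N₁ →ₛₗ[(epsHom e A).toRingHom] A) {u : G.N₁}
    (hu : u ∈ (Ideal.span {yElt k A y}) • (⊤ : Submodule (A ⊗[k] B₁) G.N₁)) : b u = 0 := by
  refine Submodule.smul_induction_on (p := fun u => b u = 0) hu ?_ ?_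
  · intro r hr n' _
    obtain ⟨c, rfl⟩ := Ideal.mem_span_singleton'.mp hr
    rw [b.map_smulₛₗ]
    have h : (epsHom e A).toRingHom (c * yElt k A y) = 0 := by
      change epsHom e A (c * yElt k A y) = 0
      rw [map_mul, epsHom_yElt hC, mul_zero]
    rw [h, zero_smul]
  · intro a c ha hc
    rw [map_add, ha, hc, add_zero]

variable [IsAlgClosed k]

/-- `genSub = ⊤ ⇒ P2`: if `H⁰(G(nE₀ - Σq))` generates `N₁` modulo `y`, it is free of rank one
on a section generating `N₁` modulo `y`. -/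
theorem exists_isGen_of_genSub_eq_top (hC : IsCurveChart k B₀ B₁ B₀₁ x y e)
    (i : ChartIndex k B₀) (hnum : i.Numeric B₀₁ y) (G : CurveGD k B₀ B₁ B₀₁ A)
    (hrig : G.Rigidifiable e) (hdeg : G.Deg0) (h1 : P1 x i.n i.q G)
    (htop : genSub x y i.n i.q G = ⊤) : ∃ s, IsGen x y i.n i.q G s := by
  obtain ⟨b, hb⟩ := hrig
  haveI := ker_evq_invertible hC i hnum G hdeg h1
  let lam : LinearMap.ker (evq x i.n i.q G) →ₗ[A] A :=
    { toFun := fun ℓ => b ((ℓ : sec x i.n G) : G.N₀ × G.N₁).2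
      map_add' := fun ℓ ℓ' => by
        show b (((ℓ : sec x i.n G) : G.N₀ × G.N₁).2 + ((ℓ' : sec x i.n G) : G.N₀ × G.N₁).2) = _
        rw [map_add]
      map_smul' := fun a ℓ => by
        show b (a • ((ℓ : sec x i.n G) : G.N₀ × G.N₁).2) = _
        rw [rig_smul]
        rfl }
  have hlam : ∀ ℓ : LinearMap.ker (evq x i.n i.q G),
      lam ℓ = b ((ℓ : sec x i.n G) : G.N₀ × G.N₁).2 := fun _ => rfl
  have hrange : ∀ n : G.N₁, b n ∈ LinearMap.range lam := by
    intro n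
    have hn : n ∈ genSub x y i.n i.q G := by rw [htop]; trivial
    obtain ⟨u, hu, v, hv, rfl⟩ := Submodule.mem_sup.mp hn
    rw [map_add, rig_eq_zero_of_mem hC b hu, zero_add]
    refine Submodule.span_induction (p := fun v _ => b v ∈ LinearMap.range lam) ?_ ?_ ?_ ?_ hv
    · rintro _ ⟨s, hs, rfl⟩
      exact ⟨⟨⟨s, hs.1⟩, (mem_ker_evq _).mpr hs⟩, rfl⟩
    · rw [map_zero]; exact zero_mem _
    · intro a c _ _ ha hc
      rw [map_add]; exact add_mem ha hc
    · intro r v _ hv'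
      rw [b.map_smulₛₗ]
      exact (LinearMap.range lam).smul_mem _ hv'
  have hsurj : Function.Surjective lam := by
    rw [← LinearMap.range_eq_top, eq_top_iff]
    have h1' := span_image_eq_top_of_isSemilinearBaseChange _ b hb (1 : A)
    have hle : Submodule.span A (Set.range b) ≤ LinearMap.range lam :=
      Submodule.span_le.mpr (by rintro _ ⟨n, rfl⟩; exact hrange n)
    intro a _
    have ha : a = a • (1 : A) := by rw [smul_eq_mul, mul_one]
    rw [ha]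
    exact Submodule.smul_mem _ a (hle h1')
  have hbij : Function.Bijective lam := Module.Invertible.bijective_of_surjective hsurj
  obtain ⟨s₀, hs₀⟩ := hsurj 1
  have hspan : ∀ t ∈ secq x i.n i.q G, ∃ a : A,
      t = a • ((s₀ : sec x i.n G) : G.N₀ × G.N₁) := by
    intro t ht
    let tt : LinearMap.ker (evq x i.n i.q G) := ⟨⟨t, ht.1⟩, (mem_ker_evq _).mpr ht⟩
    refine ⟨lam tt, ?_⟩
    have h : tt = lam tt • s₀ := by
      apply hbij.1
      rw [map_smul, hs₀, smul_eq_mul, mul_one]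
    exact congrArg (fun ℓ : LinearMap.ker (evq x i.n i.q G) =>
      ((ℓ : sec x i.n G) : G.N₀ × G.N₁)) h
  refine ⟨((s₀ : sec x i.n G) : G.N₀ × G.N₁), (mem_ker_evq _).mp s₀.2, hspan, ?_⟩
  intro c
  have hc : c ∈ genSub x y i.n i.q G := by rw [htop]; trivial
  obtain ⟨u, hu, v, hv, rfl⟩ := Submodule.mem_sup.mp hc
  have hv' : v ∈ Submodule.span (A ⊗[k] B₁) {((s₀ : sec x i.n G) : G.N₀ × G.N₁).2} := by
    refine Submodule.span_le.mpr ?_ hv
    rintro _ ⟨t, ht, rfl⟩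
    obtain ⟨a, rfl⟩ := hspan t ht
    show a • ((s₀ : sec x i.n G) : G.N₀ × G.N₁).2 ∈ _
    rw [← algebraMap_smul (A ⊗[k] B₁) a]
    exact Submodule.smul_mem _ _ (Submodule.mem_span_singleton_self _)
  obtain ⟨r, rfl⟩ := Submodule.mem_span_singleton.mp hv'
  refine ⟨r, ?_⟩
  rw [add_sub_cancel_right]
  exact hu

end Rigid

section Finite

variable {A : Type u} [CommRing A] [Algebra k A]

/-- `span {1 ⊗ y}` is the extension of `span {y}`. -/
theorem span_yElt_eq_map (y : B₁) :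
    (Ideal.span {yElt k A y} : Ideal (A ⊗[k] B₁)) =
      (Ideal.span {y}).map (Algebra.TensorProduct.includeRight : B₁ →ₐ[k] A ⊗[k] B₁) := by
  rw [Ideal.map_span, Set.image_singleton]
  rfl

/-- `(A ⊗ B₁) ⧸ (1 ⊗ y)` is a finite free `A`-module. -/
theorem finite_free_quotient_yElt (hC : IsCurveChart k B₀ B₁ B₀₁ x y e) :
    Module.Finite A ((A ⊗[k] B₁) ⧸ (Ideal.span {yElt k A y} : Ideal (A ⊗[k] B₁))) ∧
      Module.Free A ((A ⊗[k] B₁) ⧸ (Ideal.span {yElt k A y} : Ideal (A ⊗[k] B₁))) := by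
  haveI := H190.finite_quot_y hC
  let E : A ⊗[k] (B₁ ⧸ Ideal.span {y}) ≃ₐ[A]
      (A ⊗[k] B₁) ⧸ (Ideal.span {yElt k A y} : Ideal (A ⊗[k] B₁)) :=
    (Algebra.TensorProduct.tensorQuotientEquiv (R := k) A B₁ A (Ideal.span {y})).trans
      (Ideal.quotientEquivAlgOfEq A (span_yElt_eq_map (A := A) y).symm)
  exact ⟨Module.Finite.equiv E.toLinearEquiv, Module.Free.of_equiv E.toLinearEquiv⟩

/-- `N₁ ⧸ y N₁` is a finite `A`-module. -/
theorem finite_quotient_y_smul_top (hC : IsCurveChart k B₀ B₁ B₀₁ x y e)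
    (G : CurveGD k B₀ B₁ B₀₁ A) :
    Module.Finite A
      (G.N₁ ⧸ (Ideal.span {yElt k A y}) • (⊤ : Submodule (A ⊗[k] B₁) G.N₁)) := by
  haveI := G.invertible₁
  haveI := (finite_free_quotient_yElt (A := A) hC).1
  haveI := (finite_free_quotient_yElt (A := A) hC).2
  exact (quotient_smul_top_of_invertible (A := A) (Ideal.span {yElt k A y}) G.N₁).1

/-- `N₁ ⧸ (y N₁ + R₁ · snd secq)` is a finite `A`-module. -/
theorem finite_quotient_genSub (hC : IsCurveChart k B₀ B₁ B₀₁ x y e) (n : ℕ) {m : ℕ}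
    (q : Fin m → (B₀ →ₐ[k] k)) (G : CurveGD k B₀ B₁ B₀₁ A) :
    Module.Finite A (G.N₁ ⧸ genSub x y n q G) := by
  haveI := finite_quotient_y_smul_top hC G
  let f : (G.N₁ ⧸ (Ideal.span {yElt k A y}) • (⊤ : Submodule (A ⊗[k] B₁) G.N₁)) →ₗ[A]
      (G.N₁ ⧸ genSub x y n q G) :=
    (Submodule.mapQ _ (genSub x y n q G) LinearMap.id
      (fun u hu => Submodule.mem_sup_left hu)).restrictScalars A
  refine Module.Finite.of_surjective f ?_
  intro z
  obtain ⟨c, rfl⟩ := Submodule.Quotient.mk_surjective _ z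
  exact ⟨Submodule.Quotient.mk c, rfl⟩

end Finite

section BaseChange

variable {A A' : Type u} [CommRing A] [Algebra k A] [CommRing A'] [Algebra k A']
  [Algebra A A'] [IsScalarTower k A A']
  {ψ : A →ₐ[k] A'} {G : CurveGD k B₀ B₁ B₀₁ A} {G' : CurveGD k B₀ B₁ B₀₁ A'}
  {bc : GlueDatum.BaseChangeMaps (tensorMapLeft k ψ B₀) (tensorMapLeft k ψ B₁)
      (tensorMapLeft k ψ B₀₁) G G'}

omit [Algebra A A'] [IsScalarTower k A A'] in
/-- Base change of the ideal `(1 ⊗ y)`. -/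
theorem map_span_yElt (ψ : A →ₐ[k] A') (y : B₁) :
    (Ideal.span {yElt k A y} : Ideal (A ⊗[k] B₁)).map (tensorMapLeft k ψ B₁) =
      Ideal.span {yElt k A' y} := by
  rw [Ideal.map_span, Set.image_singleton, H610.tensorMapLeft_yElt]

omit [Algebra A A'] [IsScalarTower k A A'] in
/-- Base-change maps send `genSub G` into `genSub G'`. -/
theorem genSub_le_comap (ψ : A →ₐ[k] A')
    (bc : GlueDatum.BaseChangeMaps (tensorMapLeft k ψ B₀) (tensorMapLeft k ψ B₁)
      (tensorMapLeft k ψ B₀₁) G G') (x : B₀) (y : B₁) (n : ℕ) {m : ℕ}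
    (q : Fin m → (B₀ →ₐ[k] k)) :
    genSub x y n q G ≤ (genSub x y n q G').comap bc.b₁ := by
  refine sup_le ?_ (Submodule.span_le.mpr ?_)
  · intro u hu
    rw [Submodule.mem_comap]
    have h := semilinear_mem_map_smul_top (tensorMapLeft k ψ B₁) bc.b₁ _ hu
    rw [map_span_yElt] at h
    exact Submodule.mem_sup_left h
  · rintro _ ⟨s, hs, rfl⟩
    rw [SetLike.mem_coe, Submodule.mem_comap]
    exact Submodule.mem_sup_right (Submodule.subset_span
      ⟨(bc.b₀ s.1, bc.b₁ s.2),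
        ⟨H610.mem_sec_of_baseChangeMaps ψ bc x n hs.1, b₀_mem_vanq ψ bc q hs.2⟩, rfl⟩)

/-- Under `P1` for `G`, `genSub G'` is spanned by the image of `genSub G`. -/
theorem genSub_le_span (E : H791.BCEquivs ψ bc) (hC : IsCurveChart k B₀ B₁ B₀₁ x y e)
    (n : ℕ) {m : ℕ} (q : Fin m → (B₀ →ₐ[k] k)) (h1 : P1 x n q G) :
    genSub x y n q G' ≤
      Submodule.span (A' ⊗[k] B₁) (bc.b₁ '' (genSub x y n q G : Set G.N₁)) := by
  refine sup_le ?_ (Submodule.span_le.mpr ?_)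
  · have h := map_smul_top_le_span (tensorMapLeft k ψ B₁) bc.b₁ bc.isBaseChange₁
      (Ideal.span {yElt k A y})
    rw [map_span_yElt] at h
    refine h.trans (Submodule.span_mono (Set.image_mono ?_))
    intro u hu
    exact Submodule.mem_sup_left hu
  · rintro _ ⟨t', ht', rfl⟩
    have h := E.mem_span_of_mem_secq hC n q h1 ht'
    refine Submodule.span_induction
      (p := fun t' _ => t'.2 ∈
        Submodule.span (A' ⊗[k] B₁) (bc.b₁ '' (genSub x y n q G : Set G.N₁))) ?_ ?_ ?_ ?_ h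
    · rintro _ ⟨s, hs, rfl⟩
      exact Submodule.subset_span
        ⟨s.2, Submodule.mem_sup_right (Submodule.subset_span ⟨s, hs, rfl⟩), rfl⟩
    · exact zero_mem _
    · intro a c _ _ ha hc
      exact add_mem ha hc
    · intro a' t _ ht
      show a' • t.2 ∈ _
      rw [← algebraMap_smul (A' ⊗[k] B₁) a']
      exact Submodule.smul_mem _ _ ht

/-- The semilinear map `N₁ ⧸ genSub G → N₁' ⧸ genSub G'`. -/
noncomputable def genSubMap (ψ : A →ₐ[k] A')
    (bc : GlueDatum.BaseChangeMaps (tensorMapLeft k ψ B₀) (tensorMapLeft k ψ B₁)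
      (tensorMapLeft k ψ B₀₁) G G') (x : B₀) (y : B₁) (n : ℕ) {m : ℕ}
    (q : Fin m → (B₀ →ₐ[k] k)) :
    (G.N₁ ⧸ genSub x y n q G) →ₛₗ[tensorMapLeft k ψ B₁] (G'.N₁ ⧸ genSub x y n q G') :=
  quotMapSL (tensorMapLeft k ψ B₁) bc.b₁ _ _ (genSub_le_comap ψ bc x y n q)

/-- Under `P1` for `G`: `N₁' ⧸ genSub G' ≃ A' ⊗[A] (N₁ ⧸ genSub G)`. -/
theorem exists_genSub_quotient_equiv (hψ : ∀ a, ψ a = algebraMap A A' a)
    (E : H791.BCEquivs ψ bc) (hC : IsCurveChart k B₀ B₁ B₀₁ x y e)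
    (n : ℕ) {m : ℕ} (q : Fin m → (B₀ →ₐ[k] k)) (h1 : P1 x n q G) :
    Nonempty (A' ⊗[A] (G.N₁ ⧸ genSub x y n q G) ≃ₗ[A'] (G'.N₁ ⧸ genSub x y n q G')) := by
  have hbc : IsSemilinearBaseChange (tensorMapLeft k ψ B₁) (genSubMap ψ bc x y n q) :=
    quotMapSL_isSemilinearBaseChange _ bc.b₁ bc.isBaseChange₁ _ _ _
      (genSub_le_span E hC n q h1)
  obtain ⟨F, -⟩ := H550.exists_equiv_of_isSemilinearBaseChange_tensor ψ hψ B₁
    (genSubMap ψ bc x y n q) hbc
  exact ⟨F⟩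

/-- Under `P1` for `G`: `genSub G' = ⊤` iff the annihilator of `N₁ ⧸ genSub G` generates the
unit ideal of `A'`. -/
theorem genSub_eq_top_iff (hψ : ∀ a, ψ a = algebraMap A A' a)
    (E : H791.BCEquivs ψ bc) (hC : IsCurveChart k B₀ B₁ B₀₁ x y e)
    (n : ℕ) {m : ℕ} (q : Fin m → (B₀ →ₐ[k] k)) (h1 : P1 x n q G) :
    genSub x y n q G' = ⊤ ↔
      (Module.annihilator A (G.N₁ ⧸ genSub x y n q G)).map (algebraMap A A') = ⊤ := by
  haveI := finite_quotient_genSub hC n q G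
  obtain ⟨F⟩ := exists_genSub_quotient_equiv hψ E hC n q h1
  rw [← H791.subsingleton_tensorProduct_iff, F.toEquiv.subsingleton_congr,
    Submodule.Quotient.subsingleton_iff]

end BaseChange

section Main

variable [IsAlgClosed k] {A : Type u} [CommRing A] [Algebra k A]

/-- **ST2** (exact skeleton statement): given `P1`, rigidifiability and degree 0, the locus
where the rank one module `H⁰(G(nE₀ - Σq))` generates `N₁ / y N₁`; there it is free on a
generator `s`. -/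
theorem stage2_locus (hC : IsCurveChart k B₀ B₁ B₀₁ x y e) (i : ChartIndex k B₀)
    (hnum : i.Numeric B₀₁ y) (G : CurveGD k B₀ B₁ B₀₁ A) (hrig : G.Rigidifiable e)
    (hdeg : G.Deg0) (h1 : P1 x i.n i.q G) :
    ∃ J : Ideal A, ∀ (A' : Type u) [CommRing A'] [Algebra k A'] (ψ : A →ₐ[k] A')
      (G' : CurveGD k B₀ B₁ B₀₁ A'), CurveGD.IsBC ψ G G' →
        (P2 x y i.n i.q G' ↔ J.map ψ.toRingHom = ⊤) := by
  refine ⟨Module.annihilator A (G.N₁ ⧸ genSub x y i.n i.q G), ?_⟩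
  intro A' _ _ ψ G' hbc
  letI : Algebra A A' := ψ.toRingHom.toAlgebra
  haveI : IsScalarTower k A A' := IsScalarTower.of_algebraMap_eq' (by
    ext c
    exact (ψ.commutes c).symm)
  have hψ : ∀ a, ψ a = algebraMap A A' a := fun _ => rfl
  have h1' : P1 x i.n i.q G' := H791.p1_baseChange hC i.n i.q ψ hψ hbc h1
  have hrig' : G'.Rigidifiable e := H265.rigidifiable_of_isBC hbc hrig
  have hdeg' : G'.Deg0 := H265.deg0_of_isBC hbc hdeg
  obtain ⟨bc⟩ := hbc
  obtain ⟨E⟩ := H791.exists_bcEquivs ψ hψ bc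
  have hiff := genSub_eq_top_iff (x := x) (y := y) hψ E hC i.n i.q h1
  change _ ↔ (Module.annihilator A (G.N₁ ⧸ genSub x y i.n i.q G)).map (algebraMap A A') = ⊤
  rw [← hiff]
  constructor
  · rintro ⟨-, s, hs⟩
    exact genSub_eq_top_of_isGen hs
  · intro htop
    exact ⟨h1', exists_isGen_of_genSub_eq_top hC i hnum G' hrig' hdeg' h1' htop⟩

/-- Leaf `Stage2` of ALGCHARTS. -/
theorem leaf_stage2 : H11.Leaf.Stage2 k B₀ B₁ B₀₁ :=
  fun _ _ _ hC i hnum _ _ _ G hrig hdeg h1 => stage2_locus hC i hnum G hrig hdeg h1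

end Main

end Fermat.Agent.S25.H446
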