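import Mathlib

/-!
# Row S25, block ALGCHARTS, shared sub-lemma SH2, part 1 (helper446): point ideals, algebra

Mathlib only.

* `ker_algHom_isMaximal`, `ker_algHom_ne_bot` : the kernel of a `k`-point `p : B →ₐ[k] k`.
* `finrank_quotient_ker_mul` : in a Dedekind domain `B` over a field `k`,
  `dim_k B / (ker p · J) = dim_k B / J + 1` for a `k`-point `p` and a nonzero ideal `J`.
* `finrank_quotient_prod_ker` : `dim_k B / (∏ i, ker (q i)) = m` for `q : Fin m → (B →ₐ[k] k)`
  (repetitions allowed), `B` a Dedekind domain which is not a field.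
* `ker_lift_eq_map` : for a `k`-algebra `A`, the kernel of the retraction
  `A ⊗[k] B → A`, `a ⊗ b ↦ a · p b` is the extension of `ker p` along `B → A ⊗[k] B`.
* `quotient_map_includeRight_free` etc.: `(A ⊗[k] B) ⧸ I·(A ⊗[k] B)` is a free `A`-module of rank
  `dim_k B / I`.
-/

set_option autoImplicit false

open scoped TensorProduct

namespace Fermat.Agent.S25.H446

section Point

variable {k B : Type*} [Field k] [CommRing B] [Algebra k B]

/-- A `k`-point is surjective. -/
theorem algHom_point_surjective (p : B →ₐ[k] k) : Function.Surjective p := fun c =>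
  ⟨algebraMap k B c, by simp⟩

/-- The kernel of a `k`-point is a maximal ideal. -/
theorem ker_algHom_isMaximal (p : B →ₐ[k] k) : (RingHom.ker p).IsMaximal :=
  RingHom.ker_isMaximal_of_surjective p (algHom_point_surjective p)

/-- `b - p b ∈ ker p`. -/
theorem sub_algebraMap_mem_ker (p : B →ₐ[k] k) (b : B) :
    b - algebraMap k B (p b) ∈ RingHom.ker p := by
  rw [RingHom.mem_ker, map_sub, AlgHom.commutes, Algebra.algebraMap_self_apply, sub_self]

/-- The kernel of a `k`-point of a ring which is not a field is nonzero. -/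
theorem ker_algHom_ne_bot (hB : ¬ IsField B) (p : B →ₐ[k] k) : RingHom.ker p ≠ ⊥ := by
  intro h
  apply hB
  have hinj : Function.Injective p := (RingHom.injective_iff_ker_eq_bot p.toRingHom).mpr h
  exact (MulEquiv.ofBijective p ⟨hinj, algHom_point_surjective p⟩).isField
    (Field.toIsField k)

end Point

section Dedekind

variable {k B : Type*} [Field k] [CommRing B] [IsDedekindDomain B] [Algebra k B]

/-- In a Dedekind domain there is no ideal strictly between `m * J` and `J` (`m` maximal). -/
theorem eq_of_mul_le_of_le_of_ne {m J L : Ideal B} (hm : m.IsMaximal) (hJ : J ≠ ⊥)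
    (h1 : m * J ≤ L) (h2 : L ≤ J) (h3 : L ≠ m * J) : L = J := by
  obtain ⟨L', rfl⟩ := Ideal.dvd_iff_le.mpr h2
  have hd : J * L' ∣ J * m := by
    rw [mul_comm J m]; exact Ideal.dvd_iff_le.mpr h1
  have hd' : L' ∣ m := (mul_dvd_mul_iff_left (show J ≠ 0 from hJ)).mp hd
  have hle : m ≤ L' := Ideal.dvd_iff_le.mp hd'
  by_cases hL' : L' = ⊤
  · rw [hL', Ideal.mul_top]
  · exact absurd (by rw [hm.eq_of_le hL' hle, mul_comm]) h3

/-- Key dimension count: `dim_k B/(ker p · J) = dim_k B/J + 1` for a `k`-point `p` and a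
nonzero ideal `J` of a Dedekind domain `B`. -/
theorem finrank_quotient_ker_mul (p : B →ₐ[k] k) (J : Ideal B) (hJ : J ≠ ⊥)
    [Module.Finite k (B ⧸ J)] :
    Module.Finite k (B ⧸ (RingHom.ker p * J)) ∧
      Module.finrank k (B ⧸ (RingHom.ker p * J)) = Module.finrank k (B ⧸ J) + 1 := by
  classical
  have hmax : (RingHom.ker p).IsMaximal := ker_algHom_isMaximal p
  have hle : RingHom.ker p * J ≤ J := Ideal.mul_le_right
  have hne : RingHom.ker p * J ≠ J := by
    intro h
    have h' : J * RingHom.ker p = J * 1 := by rw [mul_comm, h, mul_one]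
    have := mul_left_cancel₀ (show J ≠ 0 from hJ) h'
    exact hmax.ne_top (by rw [this, Ideal.one_eq_top])
  let π : (B ⧸ (RingHom.ker p * J)) →ₗ[k] (B ⧸ J) := (Ideal.Quotient.factorₐ k hle).toLinearMap
  have hπ : Function.Surjective π := Ideal.Quotient.factor_surjective hle
  obtain ⟨t, htJ, htm⟩ : ∃ t ∈ J, t ∉ RingHom.ker p * J := by
    by_contra hcon
    push Not at hcon
    exact hne (le_antisymm hle hcon)
  have hL : RingHom.ker p * J ⊔ Ideal.span {t} = J := by
    apply eq_of_mul_le_of_le_of_ne hmax hJ le_sup_left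
    · exact sup_le hle ((Ideal.span_singleton_le_iff_mem _).mpr htJ)
    · intro h
      exact htm (h ▸ Ideal.mem_sup_right (Ideal.subset_span rfl))
  let τ : B ⧸ (RingHom.ker p * J) := Ideal.Quotient.mk _ t
  have hτ : τ ≠ 0 := fun h => htm (Ideal.Quotient.eq_zero_iff_mem.mp h)
  have hker : LinearMap.ker π = k ∙ τ := by
    apply le_antisymm
    · intro z hz
      obtain ⟨j, rfl⟩ := Ideal.Quotient.mk_surjective z
      have hj : j ∈ J := by
        have : (Ideal.Quotient.mk J) j = 0 := hz
        exact Ideal.Quotient.eq_zero_iff_mem.mp this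
      rw [← hL] at hj
      obtain ⟨a, ha, b, hb, rfl⟩ := Submodule.mem_sup.mp hj
      obtain ⟨r, rfl⟩ := Ideal.mem_span_singleton'.mp hb
      have hrc : r - algebraMap k B (p r) ∈ RingHom.ker p := sub_algebraMap_mem_ker p r
      rw [Submodule.mem_span_singleton]
      refine ⟨p r, ?_⟩
      rw [Algebra.smul_def, IsScalarTower.algebraMap_apply k B (B ⧸ (RingHom.ker p * J)),
        Ideal.Quotient.algebraMap_eq, ← map_mul, eq_comm, ← sub_eq_zero, ← map_sub,
        Ideal.Quotient.eq_zero_iff_mem]
      have : a + r * t - algebraMap k B (p r) * t = a + (r - algebraMap k B (p r)) * t := by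
        ring
      rw [this]
      exact add_mem ha (Ideal.mul_mem_mul hrc htJ)
    · rw [Submodule.span_singleton_le_iff_mem]
      show π τ = 0
      exact Ideal.Quotient.eq_zero_iff_mem.mpr htJ
  have hfk : Module.Finite k (LinearMap.ker π) := by
    rw [hker]; infer_instance
  have hfin : Module.Finite k (B ⧸ (RingHom.ker p * J)) := by
    have e := π.quotKerEquivOfSurjective hπ
    have : Module.Finite k ((B ⧸ (RingHom.ker p * J)) ⧸ LinearMap.ker π) :=
      Module.Finite.equiv e.symm
    exact Module.Finite.of_submodule_quotient (LinearMap.ker π)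
  refine ⟨hfin, ?_⟩
  have h1 := LinearMap.finrank_range_add_finrank_ker π
  rw [LinearMap.range_eq_top.mpr hπ, finrank_top, hker, finrank_span_singleton hτ] at h1
  exact h1.symm

/-- `dim_k B / ∏ ker (q i) = m` for `k`-points `q i` (repetitions allowed) of a Dedekind
domain `B` which is not a field. -/
theorem finrank_quotient_prod_ker (hB : ¬ IsField B) :
    ∀ {m : ℕ} (q : Fin m → (B →ₐ[k] k)),
      Module.Finite k (B ⧸ ∏ i, RingHom.ker (q i)) ∧
        Module.finrank k (B ⧸ ∏ i, RingHom.ker (q i)) = m := by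
  intro m
  induction m with
  | zero =>
    intro q
    have h : (∏ i, RingHom.ker (q i)) = ⊤ := by
      rw [Finset.univ_eq_empty, Finset.prod_empty, Ideal.one_eq_top]
    rw [h]
    have : Subsingleton (B ⧸ (⊤ : Ideal B)) := Ideal.Quotient.subsingleton_iff.mpr rfl
    exact ⟨inferInstance, Module.finrank_zero_of_subsingleton⟩
  | succ m ih =>
    intro q
    rw [Fin.prod_univ_succ]
    obtain ⟨hfin, hrk⟩ := ih (fun i => q i.succ)
    have hJ : (∏ i : Fin m, RingHom.ker (q i.succ)) ≠ ⊥ := by
      rw [← Ideal.zero_eq_bot, Finset.prod_ne_zero_iff]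
      intro i _
      exact ker_algHom_ne_bot hB (q i.succ)
    obtain ⟨h1, h2⟩ := finrank_quotient_ker_mul (q 0) _ hJ
    exact ⟨h1, by rw [h2, hrk]⟩

theorem prod_ker_ne_bot (hB : ¬ IsField B) {m : ℕ} (q : Fin m → (B →ₐ[k] k)) :
    (∏ i, RingHom.ker (q i)) ≠ ⊥ := by
  rw [← Ideal.zero_eq_bot, Finset.prod_ne_zero_iff]
  intro i _
  exact ker_algHom_ne_bot hB (q i)

end Dedekind

section Tensor

variable {k : Type*} [Field k] {B : Type*} [CommRing B] [Algebra k B]
  (A : Type*) [CommRing A] [Algebra k A]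

/-- The retraction `A ⊗[k] B → A`, `a ⊗ b ↦ a · p b`, attached to a `k`-point `p` of `B`. -/
noncomputable def ptRetr (p : B →ₐ[k] k) : A ⊗[k] B →ₐ[A] A :=
  Algebra.TensorProduct.lift (AlgHom.id A A) ((Algebra.ofId k A).comp p)
    (fun _ _ => Commute.all _ _)

@[simp] theorem ptRetr_tmul (p : B →ₐ[k] k) (a : A) (b : B) :
    ptRetr A p (a ⊗ₜ[k] b) = a * algebraMap k A (p b) := by
  simp [ptRetr, Algebra.ofId_apply]

/-- `x ≡ (ptRetr x) ⊗ 1` modulo the extension of `ker p`. -/
theorem sub_ptRetr_tmul_one_mem (p : B →ₐ[k] k) (x : A ⊗[k] B) :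
    x - (ptRetr A p x) ⊗ₜ[k] (1 : B) ∈
      (RingHom.ker p).map (Algebra.TensorProduct.includeRight : B →ₐ[k] A ⊗[k] B) := by
  induction x using TensorProduct.induction_on with
  | zero => simp
  | tmul a b =>
    have h : a ⊗ₜ[k] b - (ptRetr A p (a ⊗ₜ[k] b)) ⊗ₜ[k] (1 : B) =
        (a ⊗ₜ[k] (1 : B)) * (Algebra.TensorProduct.includeRight : B →ₐ[k] A ⊗[k] B)
          (b - algebraMap k B (p b)) := by
      have h1 : (a * algebraMap k A (p b)) ⊗ₜ[k] (1 : B) = a ⊗ₜ[k] algebraMap k B (p b) := by
        rw [mul_comm, ← Algebra.smul_def, TensorProduct.smul_tmul,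
          ← Algebra.algebraMap_eq_smul_one]
      rw [ptRetr_tmul, Algebra.TensorProduct.includeRight_apply,
        Algebra.TensorProduct.tmul_mul_tmul, mul_one, one_mul, TensorProduct.tmul_sub, h1]
    rw [h]
    exact Ideal.mul_mem_left _ _ (Ideal.mem_map_of_mem _ (sub_algebraMap_mem_ker p b))
  | add x y hx hy =>
    have h : x + y - (ptRetr A p (x + y)) ⊗ₜ[k] (1 : B) =
        (x - (ptRetr A p x) ⊗ₜ[k] (1 : B)) + (y - (ptRetr A p y) ⊗ₜ[k] (1 : B)) := by
      rw [map_add, TensorProduct.add_tmul]; abel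
    rw [h]
    exact add_mem hx hy

/-- The kernel of the retraction attached to `p` is the extension of `ker p`. -/
theorem ker_ptRetr_eq_map (p : B →ₐ[k] k) :
    RingHom.ker (ptRetr A p) =
      (RingHom.ker p).map (Algebra.TensorProduct.includeRight : B →ₐ[k] A ⊗[k] B) := by
  apply le_antisymm
  · intro x hx
    rw [RingHom.mem_ker] at hx
    have h := sub_ptRetr_tmul_one_mem A p x
    rwa [hx, TensorProduct.zero_tmul, sub_zero] at h
  · rw [Ideal.map_le_iff_le_comap]
    intro b hb
    rw [RingHom.mem_ker] at hb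
    rw [Ideal.mem_comap, RingHom.mem_ker, Algebra.TensorProduct.includeRight_apply, ptRetr_tmul,
      hb, map_zero, mul_zero]

/-- The product of the kernels of the retractions is the extension of the product of the
kernels. -/
theorem prod_ker_ptRetr_eq_map {m : ℕ} (q : Fin m → (B →ₐ[k] k)) :
    (∏ i, RingHom.ker (ptRetr A (q i))) =
      (∏ i, RingHom.ker (q i)).map
        (Algebra.TensorProduct.includeRight : B →ₐ[k] A ⊗[k] B) := by
  have h := map_prod (Ideal.mapHom (Algebra.TensorProduct.includeRight : B →ₐ[k] A ⊗[k] B))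
    (fun i => RingHom.ker (q i)) Finset.univ
  simp only [Ideal.mapHom_apply] at h
  rw [h]
  exact Finset.prod_congr rfl fun i _ => ker_ptRetr_eq_map A (q i)

end Tensor

end Fermat.Agent.S25.H446
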