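import Fermat.Agent.S25.H11.ACDefs
import Fermat.Agent.S25.H11.ProjAlg
import Fermat.Agent.S25.H851.HilbGD
import Fermat.Agent.S25.H207.ChartCor
import Fermat.Agent.S25.H446.PtQuot

/-!
# Row S25, block ALGCHARTS, shared sub-lemma SH2 (helper446): the ideal `ptIdeal q A`

In the language of the frozen `H11/ACDefs.lean`.  `q : Fin m → (B₀ →ₐ[k] k)` are `k`-points of
the first chart (repetitions allowed), `A` is any `k`-algebra.

* `ker_ptHom_eq_map`, `ptIdeal_eq_map` : `ptIdeal q A` is the extension to `A ⊗[k] B₀` of the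
  ideal `∏ i, ker (q i)` of `B₀`.
* `ptIdeal_map` : `(ptIdeal q A).map (tensorMapLeft k ψ B₀) = ptIdeal q A'` for `ψ : A →ₐ[k] A'`.
* `ptIdeal_quotient_free`, `ptIdeal_quotient_finite`, `ptIdeal_isHilb` : the quotient
  `(A ⊗[k] B₀) ⧸ ptIdeal q A` is a finite free `A`-module of rank `m`.
* `ptIdeal_invertible` : `ptIdeal q A` is an invertible `A ⊗[k] B₀`-module.
* `vanq_quotient_finite`, `vanq_quotient_projective`, `vanq_quotient_rank` : for a gluing datum
  `G` over `A`, the module `N₀ ⧸ I_q N₀` is finite projective of rank `m` over `A`.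
-/

set_option autoImplicit false
set_option linter.style.haveILetI false
set_option linter.unusedSectionVars false

universe u

open scoped TensorProduct

namespace Fermat.Agent.S25.H446

open Fermat.Agent.S25 Fermat.Agent.S25.H11

variable {k : Type u} [Field k] {B₀ B₁ B₀₁ : Type u} [CommRing B₀] [CommRing B₁] [CommRing B₀₁]
  [Algebra k B₀] [Algebra k B₁] [Algebra k B₀₁] [Algebra B₀ B₀₁] [Algebra B₁ B₀₁]
  [IsScalarTower k B₀ B₀₁] [IsScalarTower k B₁ B₀₁]
  {x : B₀} {y : B₁} {e : B₁ →ₐ[k] k}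

section Generators

variable (A : Type u) [CommRing A] [Algebra k A]

/-- The kernel of `ptHom p A` is the extension of `ker p` along `B₀ → A ⊗[k] B₀`. -/
theorem ker_ptHom_eq_map (p : B₀ →ₐ[k] k) :
    RingHom.ker (ptHom p A) =
      (RingHom.ker p).map (Algebra.TensorProduct.includeRight : B₀ →ₐ[k] A ⊗[k] B₀) :=
  ker_ptRetr_eq_map A p

/-- `ptIdeal q A` is the extension of the ideal `∏ i, ker (q i)` of `B₀`. -/
theorem ptIdeal_eq_map {m : ℕ} (q : Fin m → (B₀ →ₐ[k] k)) :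
    ptIdeal q A =
      (∏ i, RingHom.ker (q i)).map
        (Algebra.TensorProduct.includeRight : B₀ →ₐ[k] A ⊗[k] B₀) :=
  prod_ker_ptRetr_eq_map A q

end Generators

section BaseChange

variable {A A' : Type u} [CommRing A] [Algebra k A] [CommRing A'] [Algebra k A']

/-- **Base change of `ptIdeal`.** -/
theorem ptIdeal_map (ψ : A →ₐ[k] A') {m : ℕ} (q : Fin m → (B₀ →ₐ[k] k)) :
    (ptIdeal q A).map (tensorMapLeft k ψ B₀) = ptIdeal q A' := by
  rw [ptIdeal_eq_map, ptIdeal_eq_map]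
  change Ideal.map (tensorMapLeft k ψ B₀)
      (Ideal.map (Algebra.TensorProduct.includeRight : B₀ →ₐ[k] A ⊗[k] B₀).toRingHom _) =
    Ideal.map (Algebra.TensorProduct.includeRight : B₀ →ₐ[k] A' ⊗[k] B₀).toRingHom _
  rw [Ideal.map_map]
  congr 1
  ext b
  simp [tensorMapLeft]

end BaseChange

section Quotient

variable (A : Type u) [CommRing A] [Algebra k A]

/-- The `A`-algebra isomorphism `A ⊗[k] (B₀ ⧸ ∏ ker (q i)) ≃ (A ⊗[k] B₀) ⧸ ptIdeal q A`. -/
noncomputable def ptQuotEquiv {m : ℕ} (q : Fin m → (B₀ →ₐ[k] k)) :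
    A ⊗[k] (B₀ ⧸ ∏ i, RingHom.ker (q i)) ≃ₐ[A] (A ⊗[k] B₀) ⧸ ptIdeal q A :=
  (Algebra.TensorProduct.tensorQuotientEquiv (R := k) A B₀ A (∏ i, RingHom.ker (q i))).trans
    (Ideal.quotientEquivAlgOfEq A (ptIdeal_eq_map A q).symm)

variable [IsAlgClosed k]

/-- `dim_k B₀ ⧸ ∏ ker (q i) = m`. -/
theorem finrank_quotient_prod_ker_chart (hC : IsCurveChart k B₀ B₁ B₀₁ x y e) {m : ℕ}
    (q : Fin m → (B₀ →ₐ[k] k)) :
    Module.Finite k (B₀ ⧸ ∏ i, RingHom.ker (q i)) ∧
      Module.finrank k (B₀ ⧸ ∏ i, RingHom.ker (q i)) = m := by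
  haveI := H207.isDedekindDomain_chart₀ hC
  exact finrank_quotient_prod_ker (H207.not_isField_chart₀ hC) q

/-- `(A ⊗[k] B₀) ⧸ ptIdeal q A` is a finite `A`-module. -/
theorem ptIdeal_quotient_finite (hC : IsCurveChart k B₀ B₁ B₀₁ x y e) {m : ℕ}
    (q : Fin m → (B₀ →ₐ[k] k)) : Module.Finite A ((A ⊗[k] B₀) ⧸ ptIdeal q A) := by
  haveI := (finrank_quotient_prod_ker_chart hC q).1
  exact Module.Finite.equiv (ptQuotEquiv A q).toLinearEquiv

/-- `(A ⊗[k] B₀) ⧸ ptIdeal q A` is a free `A`-module. -/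
theorem ptIdeal_quotient_free {m : ℕ}
    (q : Fin m → (B₀ →ₐ[k] k)) : Module.Free A ((A ⊗[k] B₀) ⧸ ptIdeal q A) :=
  Module.Free.of_equiv (ptQuotEquiv A q).toLinearEquiv

/-- `(A ⊗[k] B₀) ⧸ ptIdeal q A` has rank `m` over `A`. -/
theorem ptIdeal_quotient_finrank [Nontrivial A] (hC : IsCurveChart k B₀ B₁ B₀₁ x y e) {m : ℕ}
    (q : Fin m → (B₀ →ₐ[k] k)) : Module.finrank A ((A ⊗[k] B₀) ⧸ ptIdeal q A) = m := by
  haveI := (finrank_quotient_prod_ker_chart hC q).1
  rw [← (ptQuotEquiv A q).toLinearEquiv.finrank_eq, Module.finrank_baseChange,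
    (finrank_quotient_prod_ker_chart hC q).2]

/-- **SH2.** `ptIdeal q A` is an `A`-point of the Hilbert functor `Hilb^m` of `B₀`. -/
theorem ptIdeal_isHilb (hC : IsCurveChart k B₀ B₁ B₀₁ x y e) {m : ℕ}
    (q : Fin m → (B₀ →ₐ[k] k)) : H491.IsHilb m (ptIdeal q A) := by
  haveI := ptIdeal_quotient_finite A hC q
  haveI := ptIdeal_quotient_free (k := k) A q
  refine ⟨inferInstance, inferInstance, fun p => ?_⟩
  haveI : Nontrivial A := p.nontrivial
  rw [Module.rankAtStalk_eq_finrank_of_free]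
  exact ptIdeal_quotient_finrank A hC q

/-- **SH2.** `ptIdeal q A` is an invertible `A ⊗[k] B₀`-module. -/
theorem ptIdeal_invertible (hC : IsCurveChart k B₀ B₁ B₀₁ x y e) {m : ℕ}
    (q : Fin m → (B₀ →ₐ[k] k)) : Module.Invertible (A ⊗[k] B₀) (ptIdeal q A) := by
  haveI := ptIdeal_quotient_finite A hC q
  haveI := ptIdeal_quotient_free (k := k) A q
  exact H851.hilb_invertible A hC (ptIdeal q A)

end Quotient

section QuotInv

variable {A R : Type u} [CommRing A] [CommRing R] [Algebra A R] (I : Ideal R)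
  (N : Type u) [AddCommGroup N] [Module R N] [Module A N] [IsScalarTower A R N]

/-- `N ⧸ I N` is an invertible `R ⧸ I`-module if `N` is an invertible `R`-module. -/
theorem invertible_quotient_smul_top [Module.Invertible R N] :
    Module.Invertible (R ⧸ I) (N ⧸ I • (⊤ : Submodule R N)) :=
  Module.Invertible.congr ((TensorProduct.quotTensorEquivQuotSMul N I).extendScalarsOfSurjective
    Ideal.Quotient.mk_surjective)

/-- The scalar tower `A → R ⧸ I` on `N ⧸ I N`. -/
theorem isScalarTower_quotient_smul_top :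
    IsScalarTower A (R ⧸ I) (N ⧸ I • (⊤ : Submodule R N)) := by
  refine ⟨fun a s z => ?_⟩
  obtain ⟨r, rfl⟩ := Ideal.Quotient.mk_surjective s
  obtain ⟨n, rfl⟩ := Submodule.Quotient.mk_surjective _ z
  change (Ideal.Quotient.mk I (a • r)) • Submodule.Quotient.mk n =
    a • ((Ideal.Quotient.mk I r) • Submodule.Quotient.mk n)
  rw [Module.Quotient.mk_smul_mk, Module.Quotient.mk_smul_mk, smul_assoc]
  rfl

/-- If `R ⧸ I` is finite projective over `A` of rank `m` and `N` is an invertible `R`-module,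
then `N ⧸ I N` is finite projective over `A` of rank `m`. -/
theorem quotient_smul_top_of_invertible [Module.Invertible R N] [Module.Finite A (R ⧸ I)]
    [Module.Projective A (R ⧸ I)] :
    Module.Finite A (N ⧸ I • (⊤ : Submodule R N)) ∧
      Module.Projective A (N ⧸ I • (⊤ : Submodule R N)) ∧
      Module.rankAtStalk (R := A) (N ⧸ I • (⊤ : Submodule R N)) =
        Module.rankAtStalk (R := A) (R ⧸ I) := by
  haveI := invertible_quotient_smul_top I N
  haveI := isScalarTower_quotient_smul_top (A := A) I N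
  exact ⟨H11.finite_of_tower A (R ⧸ I) _, H11.projective_of_tower A (R ⧸ I) _,
    H11.rankAtStalk_eq_of_invertible A (R ⧸ I) _⟩

end QuotInv

section Vanq

variable [IsAlgClosed k] {A : Type u} [CommRing A] [Algebra k A]

/-- **SH2.** `N₀ ⧸ I_q N₀` is a finite `A`-module. -/
theorem vanq_quotient_finite (hC : IsCurveChart k B₀ B₁ B₀₁ x y e) {m : ℕ}
    (q : Fin m → (B₀ →ₐ[k] k)) (G : CurveGD k B₀ B₁ B₀₁ A) :
    Module.Finite A (G.N₀ ⧸ vanq q G) := by
  haveI := G.invertible₀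
  haveI := ptIdeal_quotient_finite A hC q
  haveI := ptIdeal_quotient_free (k := k) A q
  exact (quotient_smul_top_of_invertible (A := A) (ptIdeal q A) G.N₀).1

/-- **SH2.** `N₀ ⧸ I_q N₀` is a projective `A`-module. -/
theorem vanq_quotient_projective (hC : IsCurveChart k B₀ B₁ B₀₁ x y e) {m : ℕ}
    (q : Fin m → (B₀ →ₐ[k] k)) (G : CurveGD k B₀ B₁ B₀₁ A) :
    Module.Projective A (G.N₀ ⧸ vanq q G) := by
  haveI := G.invertible₀
  haveI := ptIdeal_quotient_finite A hC q
  haveI := ptIdeal_quotient_free (k := k) A q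
  exact (quotient_smul_top_of_invertible (A := A) (ptIdeal q A) G.N₀).2.1

/-- **SH2.** `N₀ ⧸ I_q N₀` has rank `m` over `A`. -/
theorem vanq_quotient_rank (hC : IsCurveChart k B₀ B₁ B₀₁ x y e) {m : ℕ}
    (q : Fin m → (B₀ →ₐ[k] k)) (G : CurveGD k B₀ B₁ B₀₁ A) (p : PrimeSpectrum A) :
    Module.rankAtStalk (R := A) (G.N₀ ⧸ vanq q G) p = m := by
  haveI := G.invertible₀
  haveI := ptIdeal_quotient_finite A hC q
  haveI := ptIdeal_quotient_free (k := k) A q
  have h := (quotient_smul_top_of_invertible (A := A) (ptIdeal q A) G.N₀).2.2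
  exact (congrFun h p).trans ((ptIdeal_isHilb A hC q).rank p)

end Vanq

end Fermat.Agent.S25.H446
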