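import Fermat.Agent.S25.H11.AlgCharts3
import Fermat.Agent.S25.H611.ACStage3Final
import Fermat.Agent.S25.H911.ACCover
import Fermat.Agent.S25.H446.ACStage2

/-!
# Row S25, block ALGCHARTS: `Stmt.AlgCharts`, unconditional (assembly, helper446)

`algCharts k B₀ B₁ B₀₁ : Stmt.AlgCharts k B₀ B₁ B₀₁` for an algebraically closed field `k`:
* TOP `H11.algCharts_of_three` (helper11; Stage0, Stage1, PointBC: helper791; PointUnique:
  helper431; PointIso: helper490; Stage4 formal),
* `Stage2` : `H446.leaf_stage2` (helper446),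
* `Stage3` : `H611.leaf_stage3` (helper611, helper671),
* `Cover`  : `H911.cover_of_stage2` (helper911) applied to `H446.leaf_stage2`.
-/

set_option autoImplicit false

universe u

open scoped TensorProduct

namespace Fermat.Agent.S25.H446

open Fermat.Agent.S25

variable (k : Type u) [Field k] [IsAlgClosed k] (B₀ B₁ B₀₁ : Type u) [CommRing B₀]
  [CommRing B₁] [CommRing B₀₁] [Algebra k B₀] [Algebra k B₁] [Algebra k B₀₁] [Algebra B₀ B₀₁]
  [Algebra B₁ B₀₁] [IsScalarTower k B₀ B₀₁] [IsScalarTower k B₁ B₀₁]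

/-- Leaf `Cover` of ALGCHARTS, unconditional. -/
theorem leaf_cover : H11.Leaf.Cover k B₀ B₁ B₀₁ :=
  H911.cover_of_stage2 leaf_stage2

/-- **ALGCHARTS**: the algebraic Picard functor of a curve chart over an algebraically closed
field has an affine chart family. -/
theorem algCharts : Stmt.AlgCharts k B₀ B₁ B₀₁ :=
  H11.algCharts_of_three k B₀ B₁ B₀₁ leaf_stage2 (H611.leaf_stage3 k B₀ B₁ B₀₁)
    (leaf_cover k B₀ B₁ B₀₁)

end Fermat.Agent.S25.H446
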