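/-
S25, block GLUE, leaf G1 (helper446): morphisms and isomorphisms of sheaves of modules on a
scheme glue along open covers (basis form, cover form for restrictions along arbitrary open
immersions, and the same for `Scheme.Modules.pullback`).
-/
import Mathlib
import Fermat.Prelude.Def_AlgebraicGeometry_RelativePicardFunctor

set_option autoImplicit false

universe u

open CategoryTheory AlgebraicGeometry TopologicalSpace Opposite

namespace Fermat.Agent.S25.H446

variable {X Y : Scheme.{u}}

section Res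

/-- Restriction of sections of a sheaf of modules from `V` to a smaller open `V'`. -/
noncomputable def res (M : X.Modules) {V V' : X.Opens} (h : V' ≤ V) : Γ(M, V) ⟶ Γ(M, V') :=
  M.presheaf.map (homOfLE h).op

theorem res_eq_map (M : X.Modules) {V V' : X.Opens} (h : V' ≤ V) (i : V' ⟶ V) :
    res M h = M.presheaf.map i.op := rfl

theorem map_eq_res (M : X.Modules) {V V' : X.Opens} (i : V' ⟶ V) :
    M.presheaf.map i.op = res M (leOfHom i) := rfl

theorem map_eq_res' (M : X.Modules) {V V' : X.Opensᵒᵖ} (i : V ⟶ V') :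
    M.presheaf.map i = res M (leOfHom i.unop) := rfl

@[simp]
theorem res_comp (M : X.Modules) {V V' V'' : X.Opens} (h : V' ≤ V) (h' : V'' ≤ V') :
    res M h ≫ res M h' = res M (h'.trans h) := by
  unfold res
  rw [← Functor.map_comp]
  rfl

@[simp]
theorem res_comp_assoc (M : X.Modules) {V V' V'' : X.Opens} (h : V' ≤ V) (h' : V'' ≤ V')
    {Z : Ab} (k : Γ(M, V'') ⟶ Z) :
    res M h ≫ res M h' ≫ k = res M (h'.trans h) ≫ k := by
  rw [← Category.assoc, res_comp]

@[simp]
theorem res_refl (M : X.Modules) (V : X.Opens) (h : V ≤ V) : res M h = 𝟙 _ := by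
  unfold res
  exact M.presheaf.map_id _

@[simp]
theorem res_res_apply (M : X.Modules) {V V' V'' : X.Opens} (h : V' ≤ V) (h' : V'' ≤ V')
    (x : Γ(M, V)) : res M h' (res M h x) = res M (h'.trans h) x := by
  rw [← res_comp M h h']
  rfl

@[simp]
theorem res_refl_apply (M : X.Modules) (V : X.Opens) (h : V ≤ V) (x : Γ(M, V)) :
    res M h x = x := by
  rw [res_refl]
  rfl

theorem res_smul (M : X.Modules) {V V' : X.Opens} (h : V' ≤ V) (r : Γ(X, V)) (x : Γ(M, V)) :
    res M h (r • x) = X.presheaf.map (homOfLE h).op r • res M h x :=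
  M.map_smul (homOfLE h) r x

theorem hom_naturality_res {M N : X.Modules} (ψ : M ⟶ N) {V V' : X.Opens} (h : V' ≤ V) :
    res M h ≫ ψ.app V' = ψ.app V ≫ res N h :=
  ψ.mapPresheaf.naturality (homOfLE h).op

end Res

section Basis

variable {ι : Type*} {B : ι → X.Opens}

/-- Sections of a sheaf of modules are determined by their restrictions to the members of
a basis contained in the given open. -/
theorem section_ext_of_basis (hB : Opens.IsBasis (Set.range B)) (N : X.Modules)
    {W : X.Opens} (s t : Γ(N, W))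
    (h : ∀ i (hi : B i ≤ W), res N hi s = res N hi t) :
    s = t := by
  let F : TopCat.Sheaf Ab X := ⟨N.presheaf, N.isSheaf⟩
  refine F.eq_of_locally_eq' (fun i : {i : ι // B i ≤ W} => B i.1) W (fun i => homOfLE i.2) ?_ s t
    (fun i => h i.1 i.2)
  intro x hx
  obtain ⟨U', ⟨i, rfl⟩, hxi, hle⟩ := Opens.isBasis_iff_nbhd.mp hB hx
  exact Opens.mem_iSup.mpr ⟨⟨i, hle⟩, hxi⟩

/-- **Morphisms of sheaves of modules can be defined on a basis**: a family of linear maps
`Γ(M, B i) ⟶ Γ(N, B i)` indexed by a basis of opens and compatible with restrictions is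
induced by a unique morphism of sheaves of modules. -/
theorem existsUnique_hom_of_basis (hB : Opens.IsBasis (Set.range B)) (M N : X.Modules)
    (f : ∀ i, Γ(M, B i) ⟶ Γ(N, B i))
    (hlin : ∀ i (r : Γ(X, B i)) (m : Γ(M, B i)), f i (r • m) = r • f i m)
    (hnat : ∀ i i' (h : B i' ≤ B i), res M h ≫ f i' = f i ≫ res N h) :
    ∃! φ : M ⟶ N, ∀ i, φ.app (B i) = f i := by
  let α : (inducedFunctor B).op ⋙ M.presheaf ⟶ (inducedFunctor B).op ⋙ N.presheaf :=
    { app := fun i => f i.unop
      naturality := by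
        intro i i' g
        exact hnat i.unop i'.unop (leOfHom ((inducedFunctor B).map g.unop)) }
  let F' : TopCat.Sheaf Ab X := ⟨N.presheaf, N.isSheaf⟩
  let β : M.presheaf ⟶ N.presheaf := TopCat.Sheaf.restrictHomEquivHom M.presheaf F' hB α
  have hβ : ∀ i, β.app (op (B i)) = f i := fun i =>
    TopCat.Sheaf.extend_hom_app M.presheaf F' hB α i
  have hlinβ : ∀ (W : X.Opens) (r : Γ(X, W)) (m : Γ(M, W)),
      β.app (op W) (r • m) = r • β.app (op W) m := by
    intro W r m
    apply section_ext_of_basis hB N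
    intro i hi
    have h1 : ∀ x : Γ(M, W), res N hi (β.app (op W) x) = f i (res M hi x) := by
      intro x
      have := β.naturality (homOfLE hi).op
      rw [hβ] at this
      exact (congr($this x)).symm
    rw [h1, res_smul, res_smul, hlin, h1]
  refine ⟨⟨PresheafOfModules.homMk β ?_⟩, ?_, ?_⟩
  · intro W r m
    exact hlinβ W.unop r m
  · intro i
    ext x
    exact congr($(hβ i) x)
  · intro ψ hψ
    have key : ψ.mapPresheaf = β := by
      apply TopCat.Sheaf.hom_ext M.presheaf F' hB
      intro i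
      rw [hβ]
      exact hψ i
    apply Scheme.Modules.hom_ext
    intro U
    ext x
    exact congr($(key).app (op U) x)

end Basis

section AppOn

variable (j : Y ⟶ X) [IsOpenImmersion j] {M N K : X.Modules}

theorem image_preimage_of_le {V : X.Opens} (h : V ≤ j.opensRange) : j ''ᵁ (j ⁻¹ᵁ V) = V := by
  rw [Scheme.Hom.image_preimage_eq_opensRange_inf]
  exact inf_eq_right.mpr h

noncomputable def appImage (φ : M.restrict j ⟶ N.restrict j) (W : Y.Opens) :
    Γ(M, j ''ᵁ W) ⟶ Γ(N, j ''ᵁ W) :=
  (M.restrictAppIso j W).inv ≫ φ.app W ≫ (N.restrictAppIso j W).hom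

noncomputable def appOn (φ : M.restrict j ⟶ N.restrict j) (V : X.Opens) (h : V ≤ j.opensRange) :
    Γ(M, V) ⟶ Γ(N, V) :=
  res M (image_preimage_of_le j h).le ≫ appImage j φ (j ⁻¹ᵁ V) ≫
    res N (image_preimage_of_le j h).ge

theorem appImage_restrict_map (ψ : M ⟶ N) (W : Y.Opens) :
    appImage j ((Scheme.Modules.restrictFunctor j).map ψ) W = ψ.app (j ''ᵁ W) := rfl

theorem appImage_naturality (φ : M.restrict j ⟶ N.restrict j) {W W' : Y.Opens} (h : W' ≤ W) :
    res M (j.image_mono h) ≫ appImage j φ W' = appImage j φ W ≫ res N (j.image_mono h) := by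
  have := φ.mapPresheaf.naturality (homOfLE h).op
  exact this

theorem appOn_restrict_map (ψ : M ⟶ N) (V : X.Opens) (h : V ≤ j.opensRange) :
    appOn j ((Scheme.Modules.restrictFunctor j).map ψ) V h = ψ.app V := by
  unfold appOn
  rw [appImage_restrict_map, ← Category.assoc, hom_naturality_res, Category.assoc, res_comp,
    res_refl, Category.comp_id]

theorem appOn_naturality (φ : M.restrict j ⟶ N.restrict j) {V V' : X.Opens} (hVV' : V' ≤ V)
    (h : V ≤ j.opensRange) :
    res M hVV' ≫ appOn j φ V' (hVV'.trans h) = appOn j φ V h ≫ res N hVV' := by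
  have hW : j ⁻¹ᵁ V' ≤ j ⁻¹ᵁ V := fun x hx => hVV' hx
  have key := appImage_naturality j φ hW
  unfold appOn
  rw [res_comp_assoc, Category.assoc, Category.assoc, res_comp]
  have e1 : res M ((image_preimage_of_le j (hVV'.trans h)).le.trans hVV') =
      res M (image_preimage_of_le j h).le ≫ res M (j.image_mono hW) := by
    rw [res_comp]
  have e2 : res N ((hVV').trans (image_preimage_of_le j h).ge) =
      res N (j.image_mono hW) ≫ res N (image_preimage_of_le j (hVV'.trans h)).ge := by
    rw [res_comp]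
  rw [e1, e2, Category.assoc, ← Category.assoc (res M (j.image_mono hW)), key, Category.assoc]

theorem appImage_smul (φ : M.restrict j ⟶ N.restrict j) (W : Y.Opens) (r : Γ(X, j ''ᵁ W))
    (m : Γ(M, j ''ᵁ W)) : appImage j φ W (r • m) = r • appImage j φ W m := by
  have h1 : (M.restrictAppIso j W).inv (r • m) =
      ((j.appIso W).hom r) • (M.restrictAppIso j W).inv m :=
    Scheme.Modules.smul_restrictAppIso_inv_apply j M W r m
  have h2 := Scheme.Modules.Hom.app_smul φ (U := W) ((j.appIso W).hom r)
    ((M.restrictAppIso j W).inv m)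
  have h3 := Scheme.Modules.smul_restrictAppIso_hom_apply j N W ((j.appIso W).hom r)
    (φ.app W ((M.restrictAppIso j W).inv m))
  simp only [appImage, ConcreteCategory.comp_apply]
  rw [h1, h2]
  refine h3.trans ?_
  simp

theorem appOn_smul (φ : M.restrict j ⟶ N.restrict j) (V : X.Opens) (h : V ≤ j.opensRange)
    (r : Γ(X, V)) (m : Γ(M, V)) : appOn j φ V h (r • m) = r • appOn j φ V h m := by
  simp only [appOn, ConcreteCategory.comp_apply]
  rw [res_smul, appImage_smul, res_smul]
  congr 1
  rw [← ConcreteCategory.comp_apply, ← Functor.map_comp]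
  exact congr($(X.presheaf.map_id _) r)

theorem appOn_image (φ : M.restrict j ⟶ N.restrict j) (W : Y.Opens) :
    appOn j φ (j ''ᵁ W) (j.image_le_opensRange W) = appImage j φ W := by
  have hW : j ⁻¹ᵁ (j ''ᵁ W) = W := j.preimage_image_eq W
  unfold appOn
  have key := appImage_naturality j φ hW.le
  rw [← Category.assoc]
  erw [key]
  rw [Category.assoc, res_comp, res_refl, Category.comp_id]

theorem hom_ext_appImage {φ φ' : M.restrict j ⟶ N.restrict j}
    (h : ∀ W : Y.Opens, appImage j φ W = appImage j φ' W) : φ = φ' := by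
  apply Scheme.Modules.hom_ext
  intro W
  exact h W

theorem hom_ext_appOn {φ φ' : M.restrict j ⟶ N.restrict j}
    (h : ∀ (V : X.Opens) (hV : V ≤ j.opensRange), appOn j φ V hV = appOn j φ' V hV) : φ = φ' := by
  apply hom_ext_appImage j
  intro W
  rw [← appOn_image, ← appOn_image, h]

theorem appOn_id (V : X.Opens) (h : V ≤ j.opensRange) :
    appOn j (𝟙 (M.restrict j)) V h = 𝟙 _ := by
  have := appOn_restrict_map j (𝟙 M) V h
  rw [CategoryTheory.Functor.map_id] at this
  exact this

theorem appImage_comp (φ : M.restrict j ⟶ N.restrict j) (φ' : N.restrict j ⟶ K.restrict j)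
    (W : Y.Opens) : appImage j (φ ≫ φ') W = appImage j φ W ≫ appImage j φ' W := rfl

theorem appOn_comp (φ : M.restrict j ⟶ N.restrict j) (φ' : N.restrict j ⟶ K.restrict j)
    (V : X.Opens) (h : V ≤ j.opensRange) :
    appOn j (φ ≫ φ') V h = appOn j φ V h ≫ appOn j φ' V h := by
  unfold appOn
  rw [appImage_comp]
  simp only [Category.assoc]
  rw [res_comp_assoc, res_refl, Category.id_comp]

end AppOn

section Cover

variable {ι : Type*} {Y : ι → Scheme.{u}} (j : ∀ i, Y i ⟶ X) [∀ i, IsOpenImmersion (j i)]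

/-- The opens of `X` contained in the range of one of the `j i`. -/
def SmallOpen : Type u := {V : X.Opens // ∃ i, V ≤ (j i).opensRange}

theorem isBasis_smallOpen (hj : ⨆ i, (j i).opensRange = ⊤) :
    Opens.IsBasis (Set.range (fun V : SmallOpen j => V.1)) := by
  rw [Opens.isBasis_iff_nbhd]
  intro W x hx
  have hx' : x ∈ ⨆ i, (j i).opensRange := by rw [hj]; trivial
  obtain ⟨i, hi⟩ := Opens.mem_iSup.mp hx'
  exact ⟨W ⊓ (j i).opensRange, ⟨⟨_, i, inf_le_right⟩, rfl⟩, ⟨hx, hi⟩, inf_le_left⟩

/-- **G1 (morphisms glue).** Let `j i : Y i ⟶ X` be a family of open immersions covering `X`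
and let `φ i` be morphisms between the restrictions of `M` and `N` to `Y i` which agree on
every open contained in two of the ranges. Then there is a unique morphism `ψ : M ⟶ N`
restricting to the `φ i`. -/
theorem existsUnique_hom_of_cover (hj : ⨆ i, (j i).opensRange = ⊤) (M N : X.Modules)
    (φ : ∀ i, M.restrict (j i) ⟶ N.restrict (j i))
    (hφ : ∀ i i' (V : X.Opens) (h : V ≤ (j i).opensRange) (h' : V ≤ (j i').opensRange),
      appOn (j i) (φ i) V h = appOn (j i') (φ i') V h') :
    ∃! ψ : M ⟶ N, ∀ i, (Scheme.Modules.restrictFunctor (j i)).map ψ = φ i := by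
  classical
  let f : ∀ V : SmallOpen j, Γ(M, V.1) ⟶ Γ(N, V.1) := fun V =>
    appOn (j V.2.choose) (φ V.2.choose) V.1 V.2.choose_spec
  have hf : ∀ (V : SmallOpen j) i (h : V.1 ≤ (j i).opensRange), f V = appOn (j i) (φ i) V.1 h :=
    fun V i h => hφ _ _ _ _ _
  obtain ⟨ψ, hψ, huniq⟩ := existsUnique_hom_of_basis (isBasis_smallOpen j hj) M N f
    (fun V r m => appOn_smul _ _ _ _ r m)
    (fun V V' h => by
      obtain ⟨i, hi⟩ := V.2
      rw [hf V i hi, hf V' i (h.trans hi)]
      exact appOn_naturality (j i) (φ i) h hi)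
  refine ⟨ψ, fun i => ?_, fun ψ' hψ' => huniq ψ' fun V => ?_⟩
  · apply hom_ext_appOn
    intro V hV
    rw [appOn_restrict_map]
    exact (hψ ⟨V, i, hV⟩).trans (hf ⟨V, i, hV⟩ i hV)
  · obtain ⟨i, hi⟩ := V.2
    rw [hf V i hi, ← hψ' i, appOn_restrict_map]

/-- Uniqueness part of G1, separately: two morphisms which agree after restriction to all
members of an open cover are equal. -/
theorem hom_ext_of_cover (hj : ⨆ i, (j i).opensRange = ⊤) {M N : X.Modules} {ψ ψ' : M ⟶ N}
    (h : ∀ i, (Scheme.Modules.restrictFunctor (j i)).map ψ =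
      (Scheme.Modules.restrictFunctor (j i)).map ψ') : ψ = ψ' := by
  obtain ⟨ψ₀, -, huniq⟩ := existsUnique_hom_of_cover j hj M N
    (fun i => (Scheme.Modules.restrictFunctor (j i)).map ψ)
    (fun i i' V h h' => by rw [appOn_restrict_map, appOn_restrict_map])
  rw [huniq ψ (fun _ => rfl), huniq ψ' (fun i => (h i).symm)]

/-- **G1 for isomorphisms.** Isomorphisms between the restrictions of `M` and `N` to the
members of an open cover which agree on overlaps glue to a unique isomorphism `M ≅ N`. -/
theorem existsUnique_iso_of_cover (hj : ⨆ i, (j i).opensRange = ⊤) (M N : X.Modules)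
    (e : ∀ i, M.restrict (j i) ≅ N.restrict (j i))
    (he : ∀ i i' (V : X.Opens) (h : V ≤ (j i).opensRange) (h' : V ≤ (j i').opensRange),
      appOn (j i) (e i).hom V h = appOn (j i') (e i').hom V h') :
    ∃! ψ : M ≅ N, ∀ i, (Scheme.Modules.restrictFunctor (j i)).mapIso ψ = e i := by
  have hinv : ∀ i (V : X.Opens) (h : V ≤ (j i).opensRange),
      appOn (j i) (e i).hom V h ≫ appOn (j i) (e i).inv V h = 𝟙 _ := by
    intro i V h
    rw [← appOn_comp, Iso.hom_inv_id, appOn_id]
  have hinv' : ∀ i (V : X.Opens) (h : V ≤ (j i).opensRange),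
      appOn (j i) (e i).inv V h ≫ appOn (j i) (e i).hom V h = 𝟙 _ := by
    intro i V h
    rw [← appOn_comp, Iso.inv_hom_id, appOn_id]
  have he' : ∀ i i' (V : X.Opens) (h : V ≤ (j i).opensRange) (h' : V ≤ (j i').opensRange),
      appOn (j i) (e i).inv V h = appOn (j i') (e i').inv V h' := by
    intro i i' V h h'
    calc appOn (j i) (e i).inv V h
        = appOn (j i) (e i).inv V h ≫ appOn (j i') (e i').hom V h' ≫
            appOn (j i') (e i').inv V h' := by rw [hinv, Category.comp_id]
      _ = appOn (j i) (e i).inv V h ≫ appOn (j i) (e i).hom V h ≫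
            appOn (j i') (e i').inv V h' := by rw [he i i' V h h']
      _ = appOn (j i') (e i').inv V h' := by rw [← Category.assoc, hinv', Category.id_comp]
  obtain ⟨ψ, hψ, huniq⟩ := existsUnique_hom_of_cover j hj M N (fun i => (e i).hom) he
  obtain ⟨ψ', hψ', -⟩ := existsUnique_hom_of_cover j hj N M (fun i => (e i).inv) he'
  have h1 : ψ ≫ ψ' = 𝟙 M := by
    apply hom_ext_of_cover j hj
    intro i
    rw [Functor.map_comp, hψ, hψ', Iso.hom_inv_id, CategoryTheory.Functor.map_id]
  have h2 : ψ' ≫ ψ = 𝟙 N := by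
    apply hom_ext_of_cover j hj
    intro i
    rw [Functor.map_comp, hψ, hψ', Iso.inv_hom_id, CategoryTheory.Functor.map_id]
  refine ⟨⟨ψ, ψ', h1, h2⟩, fun i => Iso.ext (hψ i), fun χ hχ => Iso.ext ?_⟩
  exact huniq χ.hom fun i => congrArg Iso.hom (hχ i)

end Cover

section Pullback

variable (j : Y ⟶ X) [IsOpenImmersion j] {M N K : X.Modules}

/-- Transport a morphism between pullbacks along an open immersion to a morphism between
restrictions. -/
noncomputable def toRestrict (φ : (Scheme.Modules.pullback j).obj M ⟶ (Scheme.Modules.pullback j).obj N) :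
    M.restrict j ⟶ N.restrict j :=
  (Scheme.Modules.restrictFunctorIsoPullback j).hom.app M ≫ φ ≫
    (Scheme.Modules.restrictFunctorIsoPullback j).inv.app N

theorem toRestrict_pullback_map (ψ : M ⟶ N) :
    toRestrict j ((Scheme.Modules.pullback j).map ψ) = (Scheme.Modules.restrictFunctor j).map ψ := by
  unfold toRestrict
  rw [← Category.assoc, ← (Scheme.Modules.restrictFunctorIsoPullback j).hom.naturality ψ,
    Category.assoc, ← NatTrans.comp_app, Iso.hom_inv_id, NatTrans.id_app, Category.comp_id]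

theorem toRestrict_injective {φ φ' : (Scheme.Modules.pullback j).obj M ⟶ (Scheme.Modules.pullback j).obj N}
    (h : toRestrict j φ = toRestrict j φ') : φ = φ' := by
  unfold toRestrict at h
  rw [cancel_epi, cancel_mono] at h
  exact h

theorem toRestrict_id : toRestrict j (𝟙 ((Scheme.Modules.pullback j).obj M)) = 𝟙 _ := by
  unfold toRestrict
  rw [Category.id_comp, ← NatTrans.comp_app, Iso.hom_inv_id, NatTrans.id_app]

theorem toRestrict_comp (φ : (Scheme.Modules.pullback j).obj M ⟶ (Scheme.Modules.pullback j).obj N)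
    (φ' : (Scheme.Modules.pullback j).obj N ⟶ (Scheme.Modules.pullback j).obj K) :
    toRestrict j (φ ≫ φ') = toRestrict j φ ≫ toRestrict j φ' := by
  unfold toRestrict
  simp only [Category.assoc]
  rw [← NatTrans.comp_app_assoc, Iso.inv_hom_id, NatTrans.id_app, Category.id_comp]

/-- The value on `V ≤ range j` of a morphism between pullbacks along `j`. -/
noncomputable def appOnPb (φ : (Scheme.Modules.pullback j).obj M ⟶ (Scheme.Modules.pullback j).obj N)
    (V : X.Opens) (h : V ≤ j.opensRange) : Γ(M, V) ⟶ Γ(N, V) :=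
  appOn j (toRestrict j φ) V h

theorem appOnPb_pullback_map (ψ : M ⟶ N) (V : X.Opens) (h : V ≤ j.opensRange) :
    appOnPb j ((Scheme.Modules.pullback j).map ψ) V h = ψ.app V := by
  unfold appOnPb
  rw [toRestrict_pullback_map, appOn_restrict_map]

end Pullback

section CoverPullback

variable {ι : Type*} {Y : ι → Scheme.{u}} (j : ∀ i, Y i ⟶ X) [∀ i, IsOpenImmersion (j i)]

/-- **G1, pullback form.** -/
theorem existsUnique_hom_of_cover_pullback (hj : ⨆ i, (j i).opensRange = ⊤) (M N : X.Modules)
    (φ : ∀ i, (Scheme.Modules.pullback (j i)).obj M ⟶ (Scheme.Modules.pullback (j i)).obj N)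
    (hφ : ∀ i i' (V : X.Opens) (h : V ≤ (j i).opensRange) (h' : V ≤ (j i').opensRange),
      appOnPb (j i) (φ i) V h = appOnPb (j i') (φ i') V h') :
    ∃! ψ : M ⟶ N, ∀ i, (Scheme.Modules.pullback (j i)).map ψ = φ i := by
  obtain ⟨ψ, hψ, huniq⟩ := existsUnique_hom_of_cover j hj M N (fun i => toRestrict (j i) (φ i)) hφ
  refine ⟨ψ, fun i => toRestrict_injective (j i) ?_, fun ψ' hψ' => huniq ψ' fun i => ?_⟩
  · rw [toRestrict_pullback_map, hψ]
  · rw [← toRestrict_pullback_map, hψ']

theorem hom_ext_of_cover_pullback (hj : ⨆ i, (j i).opensRange = ⊤) {M N : X.Modules}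
    {ψ ψ' : M ⟶ N}
    (h : ∀ i, (Scheme.Modules.pullback (j i)).map ψ = (Scheme.Modules.pullback (j i)).map ψ') :
    ψ = ψ' := by
  apply hom_ext_of_cover j hj
  intro i
  rw [← toRestrict_pullback_map, ← toRestrict_pullback_map, h]

/-- **G1 for isomorphisms, pullback form.** -/
theorem existsUnique_iso_of_cover_pullback (hj : ⨆ i, (j i).opensRange = ⊤) (M N : X.Modules)
    (e : ∀ i, (Scheme.Modules.pullback (j i)).obj M ≅ (Scheme.Modules.pullback (j i)).obj N)
    (he : ∀ i i' (V : X.Opens) (h : V ≤ (j i).opensRange) (h' : V ≤ (j i').opensRange),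
      appOnPb (j i) (e i).hom V h = appOnPb (j i') (e i').hom V h') :
    ∃! ψ : M ≅ N, ∀ i, (Scheme.Modules.pullback (j i)).mapIso ψ = e i := by
  let e' : ∀ i, M.restrict (j i) ≅ N.restrict (j i) := fun i =>
    ⟨toRestrict (j i) (e i).hom, toRestrict (j i) (e i).inv,
      by rw [← toRestrict_comp, Iso.hom_inv_id, toRestrict_id],
      by rw [← toRestrict_comp, Iso.inv_hom_id, toRestrict_id]⟩
  obtain ⟨ψ, hψ, huniq⟩ := existsUnique_iso_of_cover j hj M N e' he
  refine ⟨ψ, fun i => Iso.ext (toRestrict_injective (j i) ?_), fun χ hχ => huniq χ fun i => Iso.ext ?_⟩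
  · have := congrArg Iso.hom (hψ i)
    simp only [Functor.mapIso_hom] at this ⊢
    rw [toRestrict_pullback_map, this]
  · have := congrArg Iso.hom (hχ i)
    simp only [Functor.mapIso_hom] at this ⊢
    rw [← toRestrict_pullback_map, this]

end CoverPullback

end Fermat.Agent.S25.H446
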