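/-
S25, block GLUE / dictionary (helper446): **sections of pullbacks**.
For a morphism of schemes `f : Y ⟶ X` and `M : X.Modules`, `pbSec f M V : Γ(M, V) ⟶ Γ(f^* M, f⁻¹ V)`
is the canonical map on sections (the unit of the pullback-pushforward adjunction).
We prove: naturality (P1), compatibility with restriction (P2), semilinearity (P3),
composition vs `pullbackComp` (P4), `pullbackCongr` (P5), the unit module vs `pullbackUnitIso` (P6),
open immersions vs `restrictFunctorIsoPullback` (P7), and the characterisation of `appOnPb`.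
-/
import Mathlib
import Fermat.Agent.S25.H446.GlueHom

set_option autoImplicit false

universe u

open CategoryTheory AlgebraicGeometry TopologicalSpace Opposite

namespace Fermat.Agent.S25.H446

variable {X Y Z : Scheme.{u}}

section PbSec

/-- The canonical map on sections `Γ(M, V) ⟶ Γ(f^* M, f⁻¹ V)`. -/
noncomputable def pbSec (f : Y ⟶ X) (M : X.Modules) (V : X.Opens) :
    Γ(M, V) ⟶ Γ((Scheme.Modules.pullback f).obj M, f ⁻¹ᵁ V) :=
  ((Scheme.Modules.pullbackPushforwardAdjunction f).unit.app M).app V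

/-- (P1) naturality in the module. -/
theorem pbSec_naturality (f : Y ⟶ X) {M N : X.Modules} (φ : M ⟶ N) (V : X.Opens) :
    pbSec f M V ≫ ((Scheme.Modules.pullback f).map φ).app (f ⁻¹ᵁ V) = φ.app V ≫ pbSec f N V := by
  have := (Scheme.Modules.pullbackPushforwardAdjunction f).unit.naturality φ
  have h2 := congrArg (fun ψ => Scheme.Modules.Hom.app ψ V) this
  simp only [Functor.id_obj, Functor.comp_obj, Functor.id_map, Functor.comp_map,
    Scheme.Modules.Hom.comp_app] at h2
  exact h2.symm

theorem pbSec_naturality_apply (f : Y ⟶ X) {M N : X.Modules} (φ : M ⟶ N) (V : X.Opens)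
    (e : Γ(M, V)) :
    ((Scheme.Modules.pullback f).map φ).app (f ⁻¹ᵁ V) (pbSec f M V e) =
      pbSec f N V (φ.app V e) :=
  congr($(pbSec_naturality f φ V) e)

/-- (P2) compatibility with restriction. -/
theorem pbSec_res (f : Y ⟶ X) (M : X.Modules) {V V' : X.Opens} (h : V' ≤ V) :
    res M h ≫ pbSec f M V' =
      pbSec f M V ≫ res ((Scheme.Modules.pullback f).obj M)
        (show f ⁻¹ᵁ V' ≤ f ⁻¹ᵁ V from fun _ hx => h hx) :=
  hom_naturality_res ((Scheme.Modules.pullbackPushforwardAdjunction f).unit.app M) h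

theorem pbSec_res_apply (f : Y ⟶ X) (M : X.Modules) {V V' : X.Opens} (h : V' ≤ V)
    (e : Γ(M, V)) :
    pbSec f M V' (res M h e) =
      res ((Scheme.Modules.pullback f).obj M)
        (show f ⁻¹ᵁ V' ≤ f ⁻¹ᵁ V from fun _ hx => h hx) (pbSec f M V e) :=
  congr($(pbSec_res f M h) e)

/-- (P3) semilinearity. -/
theorem pbSec_smul (f : Y ⟶ X) (M : X.Modules) (V : X.Opens) (r : Γ(X, V)) (e : Γ(M, V)) :
    pbSec f M V (r • e) = (f.app V r) • pbSec f M V e :=
  Scheme.Modules.Hom.app_smul ((Scheme.Modules.pullbackPushforwardAdjunction f).unit.app M) r e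

/-- (P4) composition: `pullbackComp` intertwines the iterated `pbSec` with `pbSec` of the
composition. -/
theorem pbSec_comp (f : X ⟶ Y) (g : Y ⟶ Z) (M : Z.Modules) (V : Z.Opens) :
    pbSec (f ≫ g) M V ≫ ((Scheme.Modules.pullbackComp f g).inv.app M).app ((f ≫ g) ⁻¹ᵁ V) =
      pbSec g M V ≫ pbSec f ((Scheme.Modules.pullback g).obj M) (g ⁻¹ᵁ V) := by
  have h1 := unit_conjugateEquiv
    ((Scheme.Modules.pullbackPushforwardAdjunction g).comp
      (Scheme.Modules.pullbackPushforwardAdjunction f))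
    (Scheme.Modules.pullbackPushforwardAdjunction (f ≫ g))
    (Scheme.Modules.pullbackComp f g).inv M
  rw [Scheme.Modules.conjugateEquiv_pullbackComp_inv, Adjunction.comp_unit_app] at h1
  exact (congrArg (fun ψ => Scheme.Modules.Hom.app ψ V) h1).symm

theorem pbSec_comp_apply (f : X ⟶ Y) (g : Y ⟶ Z) (M : Z.Modules) (V : Z.Opens) (e : Γ(M, V)) :
    ((Scheme.Modules.pullbackComp f g).inv.app M).app ((f ≫ g) ⁻¹ᵁ V) (pbSec (f ≫ g) M V e) =
      pbSec f ((Scheme.Modules.pullback g).obj M) (g ⁻¹ᵁ V) (pbSec g M V e) :=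
  congr($(pbSec_comp f g M V) e)

/-- (P4'), the other direction. -/
theorem pbSec_comp_hom_apply (f : X ⟶ Y) (g : Y ⟶ Z) (M : Z.Modules) (V : Z.Opens)
    (e : Γ(M, V)) :
    ((Scheme.Modules.pullbackComp f g).hom.app M).app ((f ≫ g) ⁻¹ᵁ V)
        (pbSec f ((Scheme.Modules.pullback g).obj M) (g ⁻¹ᵁ V) (pbSec g M V e)) =
      pbSec (f ≫ g) M V e := by
  rw [← pbSec_comp_apply]
  have h : ((Scheme.Modules.pullbackComp f g).inv.app M).app ((f ≫ g) ⁻¹ᵁ V) ≫
      ((Scheme.Modules.pullbackComp f g).hom.app M).app ((f ≫ g) ⁻¹ᵁ V) = 𝟙 _ := by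
    rw [← Scheme.Modules.Hom.comp_app, ← NatTrans.comp_app, Iso.inv_hom_id, NatTrans.id_app]
    rfl
  exact congr($h (pbSec (f ≫ g) M V e))

/-- (P5) equal morphisms. -/
theorem pbSec_congr {f g : Y ⟶ X} (hf : f = g) (M : X.Modules) (V : X.Opens) :
    pbSec f M V ≫ ((Scheme.Modules.pullbackCongr hf).hom.app M).app (f ⁻¹ᵁ V) =
      pbSec g M V ≫ res ((Scheme.Modules.pullback g).obj M)
        (le_of_eq (by rw [hf]) : f ⁻¹ᵁ V ≤ g ⁻¹ᵁ V) := by
  subst hf
  rw [res_refl, Category.comp_id]
  simp [Scheme.Modules.pullbackCongr]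

theorem pbSec_congr_apply {f g : Y ⟶ X} (hf : f = g) (M : X.Modules) (V : X.Opens)
    (e : Γ(M, V)) :
    ((Scheme.Modules.pullbackCongr hf).hom.app M).app (f ⁻¹ᵁ V) (pbSec f M V e) =
      res ((Scheme.Modules.pullback g).obj M)
        (le_of_eq (by rw [hf]) : f ⁻¹ᵁ V ≤ g ⁻¹ᵁ V) (pbSec g M V e) :=
  congr($(pbSec_congr hf M V) e)

/-- The unit module `𝒪_Y`; its sections are functions. -/
noncomputable abbrev unitMod (Y : Scheme.{u}) : Y.Modules := SheafOfModules.unit Y.ringCatSheaf

set_option backward.isDefEq.respectTransparency.types false in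
/-- (P6) the unit module: `pullbackUnitIso` sends the pullback of a function (as a section of
the pulled back unit module) to its pullback as a function. -/
theorem pullbackUnitIso_pbSec (f : Y ⟶ X) (V : X.Opens) (a : Γ(unitMod X, V)) :
    (Scheme.Modules.pullbackUnitIso f).hom.app (f ⁻¹ᵁ V) (pbSec f (unitMod X) V a) =
      (f.app V).hom a := by
  have h1 := SheafOfModules.pullbackPushforwardAdjunction_homEquiv_pullbackObjUnitToUnit
    f.toRingCatSheafHom
  rw [Adjunction.homEquiv_unit] at h1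
  have h2 := congrArg (fun ψ => Scheme.Modules.Hom.app ψ V) h1
  exact congr($h2 a)

section OpenImmersion

variable (j : Y ⟶ X) [IsOpenImmersion j]

set_option backward.isDefEq.respectTransparency.types false in
/-- (P7) for an open immersion, `pbSec` is restriction followed by the comparison
`restrictFunctorIsoPullback`. -/
theorem pbSec_openImmersion (M : X.Modules) (V : X.Opens) :
    pbSec j M V = res M (j.image_preimage_le V) ≫ (M.restrictAppIso j (j ⁻¹ᵁ V)).inv ≫
      ((Scheme.Modules.restrictFunctorIsoPullback j).hom.app M).app (j ⁻¹ᵁ V) := by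
  have h1 := Adjunction.unit_leftAdjointUniq_hom_app (Scheme.Modules.restrictAdjunction j)
    (Scheme.Modules.pullbackPushforwardAdjunction j) M
  exact (congrArg (fun ψ => Scheme.Modules.Hom.app ψ V) h1).symm

/-- `appOnPb` is characterised by commuting with `pbSec`. -/
theorem pbSec_appOnPb {M N : X.Modules}
    (φ : (Scheme.Modules.pullback j).obj M ⟶ (Scheme.Modules.pullback j).obj N)
    (V : X.Opens) (h : V ≤ j.opensRange) :
    appOnPb j φ V h ≫ pbSec j N V = pbSec j M V ≫ φ.app (j ⁻¹ᵁ V) := by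
  rw [pbSec_openImmersion, pbSec_openImmersion]
  unfold appOnPb appOn appImage toRestrict
  simp only [Category.assoc, Scheme.Modules.Hom.comp_app]
  rw [res_comp_assoc, res_refl, Category.id_comp, Iso.hom_inv_id_assoc]
  have h3 : Scheme.Modules.Hom.app ((Scheme.Modules.restrictFunctorIsoPullback j).inv.app N)
        (j ⁻¹ᵁ V) ≫
      Scheme.Modules.Hom.app ((Scheme.Modules.restrictFunctorIsoPullback j).hom.app N)
        (j ⁻¹ᵁ V) = 𝟙 _ := by
    rw [← Scheme.Modules.Hom.comp_app, ← NatTrans.comp_app, Iso.inv_hom_id, NatTrans.id_app]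
    rfl
  rw [h3, Category.comp_id]

theorem pbSec_appOnPb_apply {M N : X.Modules}
    (φ : (Scheme.Modules.pullback j).obj M ⟶ (Scheme.Modules.pullback j).obj N)
    (V : X.Opens) (h : V ≤ j.opensRange) (e : Γ(M, V)) :
    pbSec j N V (appOnPb j φ V h e) = φ.app (j ⁻¹ᵁ V) (pbSec j M V e) :=
  congr($(pbSec_appOnPb j φ V h) e)

/-- For an open immersion `j` and `V` inside its range, `pbSec j M V` is an isomorphism. -/
theorem isIso_pbSec (M : X.Modules) (V : X.Opens) (h : V ≤ j.opensRange) :
    IsIso (pbSec j M V) := by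
  rw [pbSec_openImmersion]
  have h1 : IsIso (res M (j.image_preimage_le V)) := by
    refine ⟨res M (image_preimage_of_le j h).ge, ?_, ?_⟩ <;> rw [res_comp, res_refl]
  have h2 : IsIso (Scheme.Modules.Hom.app
      ((Scheme.Modules.restrictFunctorIsoPullback j).hom.app M) (j ⁻¹ᵁ V)) := inferInstance
  infer_instance

theorem pbSec_bijective (M : X.Modules) (V : X.Opens) (h : V ≤ j.opensRange) :
    Function.Bijective (pbSec j M V) := by
  have := isIso_pbSec j M V h
  exact ConcreteCategory.bijective_of_isIso (pbSec j M V)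

end OpenImmersion

end PbSec

end Fermat.Agent.S25.H446
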