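/-
S25, block GLUE / dictionary (helper446): transport of a trivialisation of a line bundle along a
commutative square, with explicit tracking of sections (`pullbackTriv_pbSec`), and the key
consequence: if `ρ : s^* L ≅ 𝒪_T` is a rigidification and `e` is a local generator of `L` on `V`,
then `ρ (s^* e)` is a unit on `s⁻¹ V`.
-/
import Mathlib
import Fermat.Agent.S25.H446.PbSec

set_option autoImplicit false

universe u

open CategoryTheory AlgebraicGeometry TopologicalSpace Opposite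

namespace Fermat.Agent.S25.H446

variable {X T Y Y' : Scheme.{u}}

section Triv

theorem app_res_apply {X : Scheme.{u}} {M N : X.Modules} (φ : M ⟶ N) {V V' : X.Opens}
    (h : V' ≤ V) (x : Γ(M, V)) : φ.app V' (res M h x) = res N h (φ.app V x) :=
  congr($(hom_naturality_res φ h) x)

variable (f : T ⟶ X) (j : Y ⟶ X) (f' : Y' ⟶ Y) (j' : Y' ⟶ T) (w : f' ≫ j = j' ≫ f)
  (L : X.Modules) (m : (Scheme.Modules.pullback j).obj L ≅ unitMod Y)

/-- Transport of a trivialisation of `j^* L` along a commutative square `f' ≫ j = j' ≫ f`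
to a trivialisation of `j'^* f^* L` (this is the construction in the Prelude's
`IsInvertible.pullback`). -/
noncomputable def pullbackTriv :
    (Scheme.Modules.pullback j').obj ((Scheme.Modules.pullback f).obj L) ≅ unitMod Y' :=
  (Scheme.Modules.pullbackComp j' f).app L ≪≫ (Scheme.Modules.pullbackCongr w.symm).app L ≪≫
    ((Scheme.Modules.pullbackComp f' j).app L).symm ≪≫ (Scheme.Modules.pullback f').mapIso m ≪≫
    Scheme.Modules.pullbackUnitIso f'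

include w in
theorem preimage_le_of_comm (V : X.Opens) : j' ⁻¹ᵁ f ⁻¹ᵁ V ≤ f' ⁻¹ᵁ j ⁻¹ᵁ V := by
  have : (j' ≫ f) ⁻¹ᵁ V = (f' ≫ j) ⁻¹ᵁ V := by rw [w]
  exact le_of_eq this

/-- Tracking sections through `pullbackTriv`. -/
theorem pullbackTriv_pbSec (V : X.Opens) (e : Γ(L, V)) :
    (pullbackTriv f j f' j' w L m).hom.app (j' ⁻¹ᵁ f ⁻¹ᵁ V)
        (pbSec j' ((Scheme.Modules.pullback f).obj L) (f ⁻¹ᵁ V) (pbSec f L V e)) =
      res (unitMod Y') (preimage_le_of_comm f j f' j' w V)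
        ((f'.app (j ⁻¹ᵁ V)).hom (m.hom.app (j ⁻¹ᵁ V) (pbSec j L V e))) := by
  have hle : j' ⁻¹ᵁ f ⁻¹ᵁ V ≤ f' ⁻¹ᵁ j ⁻¹ᵁ V := preimage_le_of_comm f j f' j' w V
  -- the five steps
  have s1 : ((Scheme.Modules.pullbackComp j' f).hom.app L).app (j' ⁻¹ᵁ f ⁻¹ᵁ V)
      (pbSec j' ((Scheme.Modules.pullback f).obj L) (f ⁻¹ᵁ V) (pbSec f L V e)) =
      pbSec (j' ≫ f) L V e := pbSec_comp_hom_apply j' f L V e
  have s2 : ((Scheme.Modules.pullbackCongr w.symm).hom.app L).app (j' ⁻¹ᵁ f ⁻¹ᵁ V)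
      (pbSec (j' ≫ f) L V e) =
      res ((Scheme.Modules.pullback (f' ≫ j)).obj L) hle (pbSec (f' ≫ j) L V e) :=
    pbSec_congr_apply w.symm L V e
  have s3 : ((Scheme.Modules.pullbackComp f' j).inv.app L).app (f' ⁻¹ᵁ j ⁻¹ᵁ V)
      (pbSec (f' ≫ j) L V e) =
      pbSec f' ((Scheme.Modules.pullback j).obj L) (j ⁻¹ᵁ V) (pbSec j L V e) :=
    pbSec_comp_apply f' j L V e
  have s4 : ((Scheme.Modules.pullback f').map m.hom).app (f' ⁻¹ᵁ j ⁻¹ᵁ V)
      (pbSec f' ((Scheme.Modules.pullback j).obj L) (j ⁻¹ᵁ V) (pbSec j L V e)) =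
      pbSec f' (unitMod Y) (j ⁻¹ᵁ V) (m.hom.app (j ⁻¹ᵁ V) (pbSec j L V e)) :=
    pbSec_naturality_apply f' m.hom (j ⁻¹ᵁ V) _
  have s5 : (Scheme.Modules.pullbackUnitIso f').hom.app (f' ⁻¹ᵁ j ⁻¹ᵁ V)
      (pbSec f' (unitMod Y) (j ⁻¹ᵁ V) (m.hom.app (j ⁻¹ᵁ V) (pbSec j L V e))) =
      (f'.app (j ⁻¹ᵁ V)).hom (m.hom.app (j ⁻¹ᵁ V) (pbSec j L V e)) :=
    pullbackUnitIso_pbSec f' (j ⁻¹ᵁ V) _
  have n3 := app_res_apply ((Scheme.Modules.pullbackComp f' j).inv.app L) hle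
    (pbSec (f' ≫ j) L V e)
  have n4 := app_res_apply ((Scheme.Modules.pullback f').map m.hom) hle
    (pbSec f' ((Scheme.Modules.pullback j).obj L) (j ⁻¹ᵁ V) (pbSec j L V e))
  have n5 := app_res_apply (Scheme.Modules.pullbackUnitIso f').hom hle
    (pbSec f' (unitMod Y) (j ⁻¹ᵁ V) (m.hom.app (j ⁻¹ᵁ V) (pbSec j L V e)))
  unfold pullbackTriv
  simp only [Iso.trans_hom, Iso.app_hom, Iso.symm_hom, Iso.app_inv, Functor.mapIso_hom,
    Scheme.Modules.Hom.comp_app, ConcreteCategory.comp_apply]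
  rw [s1, s2, n3, s3]
  simp only [Functor.comp_obj]
  rw [n4, s4, n5, s5]

end Triv

end Fermat.Agent.S25.H446
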